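import Fermat.Agent.Dk.Syl

/-!
# Cocycles with values in the twisted adjoint representation
-/

set_option autoImplicit false
set_option linter.unusedSectionVars false
set_option linter.style.haveILetI false

open MulAction Matrix Matrix.GeneralLinearGroup OnePoint
open scoped MatrixGroups

namespace Fermat.Agent.Dk

noncomputable section

variable {k : Type*} [Field k] {Γ : Type*} [Group Γ]

/-- cocycles with values in `ad⁰(det)` -/
structure Cc (r : Γ →* GL (Fin 2) k) (f : Γ → Matrix (Fin 2) (Fin 2) k) : Prop where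
  mul : ∀ g h, f (g * h) = f g + (r g).val * f h * (r g).val.adjugate
  tr : ∀ g, (f g).trace = 0

/-- coboundaries with values in `ad⁰(det)` -/
def Cb (r : Γ →* GL (Fin 2) k) (f : Γ → Matrix (Fin 2) (Fin 2) k) : Prop :=
  ∃ X : Matrix (Fin 2) (Fin 2) k, X.trace = 0 ∧ ∀ g, f g = (r g).val * X * (r g).val.adjugate - X

variable {r : Γ →* GL (Fin 2) k} {f : Γ → Matrix (Fin 2) (Fin 2) k}

theorem trace_tw (g : GL (Fin 2) k) (X : Matrix (Fin 2) (Fin 2) k) (hX : X.trace = 0) :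
    (g.val * X * g.val.adjugate).trace = 0 := by
  rw [Matrix.trace_mul_comm, ← mul_assoc, adjugate_mul, smul_mul_assoc, one_mul,
    Matrix.trace_smul, hX, smul_zero]

theorem Cc.sub_cob (hf : Cc r f) {X : Matrix (Fin 2) (Fin 2) k} (hX : X.trace = 0) :
    Cc r fun g => f g - ((r g).val * X * (r g).val.adjugate - X) := by
  refine ⟨fun g h => ?_, fun g => ?_⟩
  · rw [hf.mul, map_mul, Units.val_mul, adjugate_mul_distrib]
    noncomm_ring
  · rw [Matrix.trace_sub, Matrix.trace_sub, hf.tr, trace_tw _ _ hX, hX, sub_self, sub_self]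

theorem cb_of_sub {X : Matrix (Fin 2) (Fin 2) k} (hX : X.trace = 0)
    (h : Cb r fun g => f g - ((r g).val * X * (r g).val.adjugate - X)) : Cb r f := by
  obtain ⟨Y, hY, h⟩ := h
  refine ⟨X + Y, by rw [Matrix.trace_add, hX, hY, add_zero], fun g => ?_⟩
  have h1 := sub_eq_iff_eq_add.1 (h g)
  rw [h1]
  noncomm_ring

/-- **averaging** -/
theorem avg (hf : Cc r f) (P : Subgroup Γ) (hi : ((P.index : ℕ) : k) ≠ 0)
    (h0 : ∀ u ∈ P, f u = 0) : Cb r f := by
  have hfin : P.index ≠ 0 := fun h => hi (by rw [h, Nat.cast_zero])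
  haveI : P.FiniteIndex := ⟨hfin⟩
  haveI : Finite (Γ ⧸ P) := inferInstance
  haveI := Fintype.ofFinite (Γ ⧸ P)
  let F : Γ ⧸ P → Matrix (Fin 2) (Fin 2) k := Quotient.lift f (by
    intro a b hab
    have h1 : a⁻¹ * b ∈ P := QuotientGroup.leftRel_apply.1 hab
    have h2 := hf.mul a (a⁻¹ * b)
    rw [mul_inv_cancel_left, h0 _ h1, mul_zero, zero_mul, add_zero] at h2
    exact h2.symm)
  have hF : ∀ g : Γ, F (QuotientGroup.mk g) = f g := fun _ => rfl
  have htr : ∀ q, (F q).trace = 0 := by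
    intro q
    induction q using QuotientGroup.induction_on with
    | H g => rw [hF]; exact hf.tr g
  refine ⟨-((P.index : k)⁻¹ • ∑ q, F q), ?_, fun h => ?_⟩
  · rw [Matrix.trace_neg, Matrix.trace_smul, Matrix.trace_sum]
    simp [htr]
  · have h1 : ∑ q : Γ ⧸ P, F q = (P.index : k) • f h + (r h).val * (∑ q, F q) * (r h).val.adjugate := by
      have h2 : ∑ q : Γ ⧸ P, F (h • q) = ∑ q : Γ ⧸ P, F q :=
        Equiv.sum_comp (MulAction.toPerm h) F
      have h3 : ∀ q : Γ ⧸ P, F (h • q) = f h + (r h).val * F q * (r h).val.adjugate := by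
        intro q
        induction q using QuotientGroup.induction_on with
        | H g => exact hf.mul h g
      have h4 : ∑ q, F q = ∑ q, (f h + (r h).val * F q * (r h).val.adjugate) := by
        rw [← h2]
        simp only [h3]
      refine h4.trans ?_
      rw [Finset.sum_add_distrib, Finset.sum_const, Finset.card_univ, ← Nat.card_eq_fintype_card,
        Finset.mul_sum, Finset.sum_mul, Nat.cast_smul_eq_nsmul]
      rfl
    have h5 : f h = (P.index : k)⁻¹ • (∑ q : Γ ⧸ P, F q - (r h).val * (∑ q, F q) * (r h).val.adjugate) := by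
      rw [eq_inv_smul_iff₀ hi]
      exact (sub_eq_iff_eq_add.2 h1).symm
    rw [h5, smul_sub, mul_neg, neg_mul, mul_smul_comm, smul_mul_assoc]
    abel

/-! ### the components -/

section comp

variable (hf : Cc r f)

include hf

theorem Cc.e11 (g : Γ) : f g 1 1 = - f g 0 0 := by
  have h := hf.tr g
  rw [Matrix.trace_fin_two] at h
  linear_combination h

theorem Cc.z {c : Γ} (hc : r c 1 0 = 0) (h : Γ) :
    f (c * h) 1 0 = f c 1 0 + r c 1 1 ^ 2 * f h 1 0 := by
  rw [hf.mul]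
  simp only [Matrix.add_apply, Matrix.mul_apply, Fin.sum_univ_two, adjugate_fin_two,
    Matrix.of_apply, Matrix.cons_val', Matrix.cons_val_zero, Matrix.cons_val_one,
    Matrix.cons_val_fin_one, hc, hf.e11]
  ring

theorem Cc.y {c : Γ} (hc : r c 1 0 = 0) (h : Γ) :
    f (c * h) 0 0 = f c 0 0 + r c 0 0 * r c 1 1 * f h 0 0 + r c 0 1 * r c 1 1 * f h 1 0 := by
  rw [hf.mul]
  simp only [Matrix.add_apply, Matrix.mul_apply, Fin.sum_univ_two, adjugate_fin_two,
    Matrix.of_apply, Matrix.cons_val', Matrix.cons_val_zero, Matrix.cons_val_one,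
    Matrix.cons_val_fin_one, hc, hf.e11]
  ring

theorem Cc.x {c : Γ} (hc : r c 1 0 = 0) (h : Γ) :
    f (c * h) 0 1 = f c 0 1 + r c 0 0 ^ 2 * f h 0 1 - 2 * r c 0 0 * r c 0 1 * f h 0 0 -
      r c 0 1 ^ 2 * f h 1 0 := by
  rw [hf.mul]
  simp only [Matrix.add_apply, Matrix.mul_apply, Fin.sum_univ_two, adjugate_fin_two,
    Matrix.of_apply, Matrix.cons_val', Matrix.cons_val_zero, Matrix.cons_val_one,
    Matrix.cons_val_fin_one, hc, hf.e11]
  ring

theorem Cc.one : f 1 = 0 := by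
  have h := hf.mul 1 1
  rw [map_one, Units.val_one, adjugate_one, mul_one, mul_one, one_mul] at h
  exact left_eq_add.1 h

end comp

/-- entries of `upperRightHom` -/
theorem up00 (b : k) : (upperRightHom b : GL (Fin 2) k) 0 0 = 1 := by simp
theorem up01 (b : k) : (upperRightHom b : GL (Fin 2) k) 0 1 = b := by simp
theorem up10 (b : k) : (upperRightHom b : GL (Fin 2) k) 1 0 = 0 := by simp
theorem up11 (b : k) : (upperRightHom b : GL (Fin 2) k) 1 1 = 1 := by simp

theorem Cc.zu (hf : Cc r f) {u : Γ} {b : k} (hu : r u = upperRightHom b) (h : Γ) :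
    f (u * h) 1 0 = f u 1 0 + f h 1 0 := by
  have h1 := hf.z (c := u) (by rw [hu, up10]) h
  rw [hu, up11] at h1
  rw [h1]; ring

theorem Cc.yu (hf : Cc r f) {u : Γ} {b : k} (hu : r u = upperRightHom b) (h : Γ) :
    f (u * h) 0 0 = f u 0 0 + f h 0 0 + b * f h 1 0 := by
  have h1 := hf.y (c := u) (by rw [hu, up10]) h
  rw [hu, up00, up11, up01] at h1
  rw [h1]; ring

theorem Cc.xu (hf : Cc r f) {u : Γ} {b : k} (hu : r u = upperRightHom b) (h : Γ) :
    f (u * h) 0 1 = f u 0 1 + f h 0 1 - 2 * b * f h 0 0 - b ^ 2 * f h 1 0 := by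
  have h1 := hf.x (c := u) (by rw [hu, up10]) h
  rw [hu, up00, up01] at h1
  rw [h1]; ring

/-- **Step A** -/
theorem stepA (h2 : (2 : k) ≠ 0) (hf : Cc r f) (hr : Function.Injective r) {u₀ : Γ} {b₀ : k}
    (hb₀ : b₀ ≠ 0) (hu₀ : r u₀ = upperRightHom b₀) :
    ∃ ζ η : k, ∀ u b, r u = upperRightHom b →
      f u 1 0 = ζ * b ∧ 2 * f u 0 0 = 2 * η * b + ζ * b ^ 2 := by
  refine ⟨f u₀ 1 0 / b₀, f u₀ 0 0 / b₀ - f u₀ 1 0 / 2, fun u b hu => ?_⟩
  have hcomm : u * u₀ = u₀ * u := by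
    apply hr
    rw [map_mul, map_mul, hu, hu₀, ← AddChar.map_add_eq_mul, ← AddChar.map_add_eq_mul, add_comm]
  have hy1 := hf.yu hu u₀
  have hy2 := hf.yu hu₀ u
  rw [hcomm, hy2] at hy1
  have hx1 := hf.xu hu u₀
  have hx2 := hf.xu hu₀ u
  rw [hcomm, hx2] at hx1
  have hz : f u 1 0 = f u₀ 1 0 / b₀ * b := by
    rw [div_mul_eq_mul_div, eq_div_iff hb₀]
    linear_combination hy1
  refine ⟨hz, ?_⟩
  have h3 : b₀ * (2 * f u 0 0) = 2 * b * f u₀ 0 0 + b ^ 2 * f u₀ 1 0 - b₀ ^ 2 * f u 1 0 := by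
    linear_combination -hx1
  rw [hz] at h3
  apply mul_left_cancel₀ hb₀
  rw [h3]
  field_simp
  ring

end

end Fermat.Agent.Dk
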