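import Fermat.Agent.Dk.Coc

/-!
# Vanishing of the first cohomology of the twisted adjoint representation
-/

set_option autoImplicit false
set_option linter.unusedSectionVars false
set_option linter.unusedSimpArgs false
set_option linter.style.haveILetI false

open MulAction Matrix Matrix.GeneralLinearGroup OnePoint
open scoped MatrixGroups

namespace Fermat.Agent.Dk

noncomputable section

variable {k : Type*} [Field k] {Γ : Type*} [Group Γ]
variable {r : Γ →* GL (Fin 2) k} {f : Γ → Matrix (Fin 2) (Fin 2) k}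

theorem zmod5 : ∀ x : ZMod 5, x ^ 2 - 2 ≠ 0 := by decide

theorem conj_up {c : GL (Fin 2) k} (hc : c 1 0 = 0) (b : k) :
    c * upperRightHom b * c⁻¹ = upperRightHom (c 0 0 / c 1 1 * b) := by
  rw [mul_inv_eq_iff_eq_mul]
  have hd := (isUnit_diag hc).2
  apply Units.ext
  rw [Units.val_mul, Units.val_mul]
  ext i j
  fin_cases i <;> fin_cases j <;>
    simp [Matrix.mul_apply, Fin.sum_univ_two, upperRightHom_apply, hc]
  field_simp
  ring

/-- the conjugate `c u c⁻¹` -/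
theorem map_conj_up {c : Γ} (hc : r c 1 0 = 0) {u : Γ} {b : k} (hu : r u = upperRightHom b) :
    r (c * u * c⁻¹) = upperRightHom (r c 0 0 / r c 1 1 * b) := by
  rw [map_mul, map_mul, map_inv, hu, conj_up hc]

theorem conj_mul_eq (c u : Γ) : c * u * c⁻¹ * c = c * u := by group

/-- normalization -/
theorem stepA' (h2 : (2 : k) ≠ 0) (hf : Cc r f) (hr : Function.Injective r) {u₀ : Γ} {b₀ : k}
    (hb₀ : b₀ ≠ 0) (hu₀ : r u₀ = upperRightHom b₀) :
    ∃ (ζ : k) (X : Matrix (Fin 2) (Fin 2) k), X.trace = 0 ∧ ∀ u b, r u = upperRightHom b →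
      (f u - ((r u).val * X * (r u).val.adjugate - X)) 1 0 = ζ * b ∧
      2 * (f u - ((r u).val * X * (r u).val.adjugate - X)) 0 0 = ζ * b ^ 2 := by
  obtain ⟨ζ, y₀, h⟩ := stepA h2 hf hr hb₀ hu₀
  refine ⟨ζ, !![0, 0; y₀, 0], by simp [Matrix.trace_fin_two], fun u b hu => ?_⟩
  obtain ⟨h1, h3⟩ := h u b hu
  rw [hu]
  simp only [Matrix.sub_apply, Matrix.mul_apply, Fin.sum_univ_two, adjugate_fin_two,
    Matrix.of_apply, Matrix.cons_val', Matrix.cons_val_zero, Matrix.cons_val_one,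
    Matrix.cons_val_fin_one, up00, up01, up10, up11]
  constructor
  · rw [h1]; ring
  · linear_combination h3

/-- the case of characteristic three -/
theorem stepB3 (h3 : (3 : k) = 0) (hf : Cc r f) {ζ : k}
    (hζ : ∀ u b, r u = upperRightHom b → f u 1 0 = ζ * b ∧ 2 * f u 0 0 = ζ * b ^ 2)
    (hr : Function.Injective r) {u₀ : Γ} {b₀ : k}
    (hb₀ : b₀ ≠ 0) (hu₀ : r u₀ = upperRightHom b₀) : ζ = 0 := by
  have hu1 : u₀ * (u₀ * u₀) = 1 := by
    apply hr
    rw [map_mul, map_mul, hu₀, ← AddChar.map_add_eq_mul, ← AddChar.map_add_eq_mul, map_one]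
    have h4 : b₀ + (b₀ + b₀) = 0 := by linear_combination b₀ * h3
    rw [h4, AddChar.map_zero_eq_one]
  obtain ⟨hz, hy⟩ := hζ u₀ b₀ hu₀
  have e1 := hf.xu hu₀ (u₀ * u₀)
  rw [hu1, hf.one, hf.xu hu₀ u₀, hf.yu hu₀ u₀, hf.zu hu₀ u₀, hz] at e1
  have e0 : (0 : Matrix (Fin 2) (Fin 2) k) 0 1 = 0 := rfl
  rw [e0] at e1
  have e2 : ζ * b₀ ^ 3 = 0 := by
    linear_combination (-1) * e1 + 3 * b₀ * hy + (3 * ζ * b₀ ^ 3 - f u₀ 0 1) * h3
  exact (mul_eq_zero.1 e2).resolve_right (pow_ne_zero 3 hb₀)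

theorem relZ (hf : Cc r f) {ζ : k} (h0 : ζ ≠ 0)
    (hζ : ∀ u b, r u = upperRightHom b → f u 1 0 = ζ * b ∧ 2 * f u 0 0 = ζ * b ^ 2)
    {u₀ : Γ} {b₀ : k} (hb₀ : b₀ ≠ 0) (hu₀ : r u₀ = upperRightHom b₀) {c : Γ} (hc : r c 1 0 = 0) :
    r c 0 0 / r c 1 1 = r c 1 1 ^ 2 ∧ r c 0 0 = r c 1 1 ^ 3 := by
  have hd := (isUnit_diag hc).2
  have hu' := map_conj_up hc hu₀
  have e1 := hf.z hc u₀
  rw [← conj_mul_eq, hf.zu hu', (hζ _ _ hu').1, (hζ _ _ hu₀).1] at e1
  have e2 : r c 0 0 / r c 1 1 = r c 1 1 ^ 2 := by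
    have e3 : (ζ * b₀) * (r c 0 0 / r c 1 1) = (ζ * b₀) * r c 1 1 ^ 2 := by
      linear_combination e1
    exact mul_left_cancel₀ (mul_ne_zero h0 hb₀) e3
  refine ⟨e2, ?_⟩
  rw [div_eq_iff hd] at e2
  rw [e2]; ring

section B5

variable [DecidableEq k] [Finite k] [NeZero (2 : k)] {p : ℕ} [Fact p.Prime] [CharP k p] [Finite Γ]

theorem exists_up_of_mem {b : k} (hb : b ∈ BB ((dt r).ker.map r)) : ∃ u, r u = upperRightHom b := by
  obtain ⟨u, -, hu⟩ := Subgroup.mem_map.1 ((mem_BB _).1 hb)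
  exact ⟨u, hu⟩

theorem mem_BB_of_up {b : k} {u : Γ} (hu : r u = upperRightHom b) : b ∈ BB ((dt r).ker.map r) := by
  refine (mem_BB _).2 (Subgroup.mem_map.2 ⟨u, ?_, hu⟩)
  rw [mem_ker_dt, hu, upperRightHom_apply]
  simp [det_fin_two]

theorem stepB5 (hf : Cc r f) {ζ : k} (h3 : p ≠ 3) (h2 : p ≠ 2)
    (hζ : ∀ u b, r u = upperRightHom b → f u 1 0 = ζ * b ∧ 2 * f u 0 0 = ζ * b ^ 2)
    (hr : Function.Injective r) (P : Sylow p (dt r).ker)
    (hP : ∀ u ∈ P, ∃ b, r (u : (dt r).ker) = upperRightHom b)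
    (hirr : ∃ g, r g 1 0 ≠ 0)
    (hs : ∀ g, ∃ x : k, x * x - (r g 0 0 + r g 1 1) * x + (r g 0 0 * r g 1 1 - r g 0 1 * r g 1 0) = 0)
    (hdet : ∃ g, (r g).val.det = 2)
    {u₀ : Γ} {b₀ : k} (hb₀ : b₀ ≠ 0) (hu₀ : r u₀ = upperRightHom b₀) : ζ = 0 := by
  by_contra h0
  have hrel := fun (c : Γ) (hc : r c 1 0 = 0) => relZ hf h0 hζ hb₀ hu₀ hc
  have hbB : b₀ ∈ BB ((dt r).ker.map r) := mem_BB_of_up hu₀
  have hB : BB ((dt r).ker.map r) ≠ ⊥ := fun h => hb₀ ((AddSubgroup.eq_bot_iff_forall _).1 h _ hbB)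
  have hcl := cl' P hirr hr hP hs hB
  -- t ≤ 2
  have ht : Nat.card ((al ((dt r).ker.map r)).toHomUnits.range) ≤ 2 := by
    have h1 : ((al ((dt r).ker.map r)).toHomUnits.range : Set kˣ) ⊆ {1, -1} := by
      rintro _ ⟨⟨⟨_, c, hc, rfl⟩, hst⟩, rfl⟩
      have hc10 : r c 1 0 = 0 := smul_infty_eq_self_iff.1 hst
      obtain ⟨e1, e2⟩ := hrel c hc10
      have hdet1 := (mem_ker_dt r).1 hc
      rw [det_fin_two, hc10, mul_zero, sub_zero, e2] at hdet1
      have h4 : ((al ((dt r).ker.map r)).toHomUnits ⟨⟨r c, Subgroup.mem_map_of_mem r hc⟩, hst⟩ : k) ^ 2 = 1 := by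
        change (r c 0 0 / r c 1 1) ^ 2 = 1
        rw [e1, ← hdet1]
        ring
      rcases sq_eq_one_iff.1 h4 with h5 | h5
      · left; exact Units.ext h5
      · right; exact Units.ext h5
    have h2 := Set.ncard_le_ncard h1
    have h3 : ({1, -1} : Set kˣ).ncard ≤ 2 := by
      refine (Set.ncard_insert_le _ _).trans ?_
      rw [Set.ncard_singleton]
    have h4 : Nat.card ((al ((dt r).ker.map r)).toHomUnits.range) =
      ((al ((dt r).ker.map r)).toHomUnits.range : Set kˣ).ncard := Nat.card_coe_set_eq _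
    omega
  have hord : addOrderOf b₀ = p := by
    refine addOrderOf_eq_prime ?_ hb₀
    rw [nsmul_eq_mul, CharP.cast_eq_zero, zero_mul]
  have hzle : AddSubgroup.zmultiples b₀ ≤ BB ((dt r).ker.map r) := by
    rw [AddSubgroup.zmultiples_le]
    exact hbB
  have hzc : Nat.card (AddSubgroup.zmultiples b₀) = p := by rw [Nat.card_zmultiples, hord]
  have hle : p ≤ Nat.card (BB ((dt r).ker.map r)) := by
    rw [← hzc]
    exact AddSubgroup.card_le_of_le hzle
  have hp5 : p = 5 := by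
    have h4 : p ≤ 5 := by omega
    have h5 := (Fact.out (p := p.Prime)).two_le
    have h6 : p ≠ 4 := by
      rintro rfl
      exact absurd (Fact.out (p := Nat.Prime 4)) (by norm_num)
    omega
  subst hp5
  have hBz : AddSubgroup.zmultiples b₀ = BB ((dt r).ker.map r) :=
    AddSubgroup.eq_of_le_of_card_ge hzle (by rw [hzc]; omega)
  obtain ⟨g, hg⟩ := hdet
  obtain ⟨c, hc10, hc⟩ := frattini hr P hP hb₀ hu₀ g
  obtain ⟨e1, e2⟩ := hrel c hc10
  have hdc : (r c).val.det = 2 := by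
    rw [← hg]
    exact congrArg Units.val hc
  rw [det_fin_two, hc10, mul_zero, sub_zero, e2] at hdc
  have hmem := mem_BB_of_up (map_conj_up hc10 hu₀)
  rw [← hBz, AddSubgroup.mem_zmultiples_iff] at hmem
  obtain ⟨n, hn⟩ := hmem
  rw [zsmul_eq_mul] at hn
  have hn' : (n : k) = r c 1 1 ^ 2 := by
    rw [← e1]
    exact mul_right_cancel₀ hb₀ hn
  have h5 : ((n ^ 2 - 2 : ℤ) : k) = 0 := by
    push_cast
    rw [hn', ← hdc]
    ring
  rw [CharP.intCast_eq_zero_iff k 5] at h5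
  have h6 : ((n ^ 2 - 2 : ℤ) : ZMod 5) = 0 := (ZMod.intCast_zmod_eq_zero_iff_dvd _ 5).2 h5
  push_cast at h6
  exact zmod5 _ h6

end B5

/-! ### Step C -/

section C

variable (hf : Cc r f) (hr : Function.Injective r)
  (h0 : ∀ u b, r u = upperRightHom b → f u 1 0 = 0 ∧ f u 0 0 = 0)
  {u₀ : Γ} {b₀ : k} (hb₀ : b₀ ≠ 0) (hu₀ : r u₀ = upperRightHom b₀)

include hf h0 hb₀ hu₀

theorem zc {c : Γ} (hc : r c 1 0 = 0) : f c 1 0 = 0 := by
  obtain ⟨ha, hd⟩ := isUnit_diag hc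
  have hu' := map_conj_up hc hu₀
  have e1 := hf.y hc u₀
  rw [← conj_mul_eq, hf.yu hu', (h0 _ _ hu').2, (h0 _ _ hu₀).1, (h0 _ _ hu₀).2] at e1
  have e2 : (r c 0 0 / r c 1 1 * b₀) * f c 1 0 = 0 := by linear_combination e1
  exact (mul_eq_zero.1 e2).resolve_left (mul_ne_zero (div_ne_zero ha hd) hb₀)

theorem xc {c : Γ} (hc : r c 1 0 = 0) {u : Γ} {b : k} (hu : r u = upperRightHom b) :
    f (c * u * c⁻¹) 0 1 = r c 0 0 ^ 2 * f u 0 1 + 2 * (r c 0 0 / r c 1 1) * b * f c 0 0 := by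
  have hu' := map_conj_up hc hu
  have e1 := hf.x hc u
  rw [← conj_mul_eq, hf.xu hu', (h0 _ _ hu).1, (h0 _ _ hu).2, zc hf h0 hb₀ hu₀ hc] at e1
  linear_combination e1

theorem yc {c : Γ} (hc : r c 1 0 = 0) (hdc : r c 0 0 * r c 1 1 = 1) (n : ℕ) :
    f (c ^ n) 0 0 = n * f c 0 0 := by
  induction n with
  | zero =>
    rw [pow_zero, hf.one, Nat.cast_zero, zero_mul]
    rfl
  | succ n ih =>
    have h1 : r (c ^ n) 1 0 = 0 := by
      rw [map_pow]
      exact (upper_pow hc n).1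
    rw [pow_succ', hf.y hc, ih, zc hf h0 hb₀ hu₀ h1, hdc]
    push_cast
    ring

include hr in
theorem yc0 [Finite k] (h2 : (2 : k) ≠ 0) {c : Γ} (hc : r c 1 0 = 0) (hdc : r c 0 0 * r c 1 1 = 1) :
    f c 0 0 = 0 := by
  haveI := Fintype.ofFinite k
  obtain ⟨ha, hd⟩ := isUnit_diag hc
  obtain ⟨g1, g2, g3⟩ := upper_pow hc (Fintype.card k - 1)
  rw [← map_pow] at g1 g2 g3
  rw [FiniteField.pow_card_sub_one_eq_one _ ha] at g2
  rw [FiniteField.pow_card_sub_one_eq_one _ hd] at g3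
  have e1 := xc hf h0 hb₀ hu₀ g1 hu₀
  have e2 : c ^ (Fintype.card k - 1) * u₀ * (c ^ (Fintype.card k - 1))⁻¹ = u₀ := by
    apply hr
    rw [map_conj_up g1 hu₀, g2, g3, hu₀, div_one, one_mul]
  rw [e2, g2, g3, yc hf h0 hb₀ hu₀ hc hdc, Nat.cast_sub Fintype.card_pos, Nat.cast_card_eq_zero,
    Nat.cast_one] at e1
  have e3 : (2 * b₀) * f c 0 0 = 0 := by linear_combination e1
  exact (mul_eq_zero.1 e3).resolve_left (mul_ne_zero h2 hb₀)

end C

/-! ### Step D -/

section D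

variable [DecidableEq k] [Finite k] [NeZero (2 : k)] {p : ℕ} [Fact p.Prime] [CharP k p] [Finite Γ]

theorem stepD (hf : Cc r f) (hr : Function.Injective r)
    (h0 : ∀ u b, r u = upperRightHom b → f u 1 0 = 0 ∧ f u 0 0 = 0)
    (P : Sylow p (dt r).ker)
    (hP : ∀ u ∈ P, ∃ b, r (u : (dt r).ker) = upperRightHom b)
    (hirr : ∃ g, r g 1 0 ≠ 0)
    (hs : ∀ g, ∃ x : k, x * x - (r g 0 0 + r g 1 1) * x + (r g 0 0 * r g 1 1 - r g 0 1 * r g 1 0) = 0)
    {u₀ : Γ} {b₀ : k} (hb₀ : b₀ ≠ 0) (hu₀ : r u₀ = upperRightHom b₀) :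
    ∃ κ : k, ∀ u b, r u = upperRightHom b → f u 0 1 = κ * b := by
  set B := BB ((dt r).ker.map r) with hBdef
  have hbB : b₀ ∈ B := mem_BB_of_up hu₀
  have hB : B ≠ ⊥ := fun h => hb₀ ((AddSubgroup.eq_bot_iff_forall _).1 h _ hbB)
  have hcl : Nat.card B ≤ 2 * Nat.card ((al ((dt r).ker.map r)).toHomUnits.range) + 1 :=
    cl' P hirr hr hP hs hB
  let x₁ : k → k := fun b => f (Function.invFun r (upperRightHom b)) 0 1
  have hx₁ : ∀ u b, r u = upperRightHom b → f u 0 1 = x₁ b := by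
    intro u b hu
    change f u 0 1 = f (Function.invFun r (upperRightHom b)) 0 1
    rw [← hu, Function.leftInverse_invFun hr u]
  have hadd : ∀ b ∈ B, ∀ b' ∈ B, x₁ (b + b') = x₁ b + x₁ b' := by
    intro b hb b' hb'
    obtain ⟨u, hu⟩ := exists_up_of_mem hb
    obtain ⟨u', hu'⟩ := exists_up_of_mem hb'
    rw [← hx₁ u b hu, ← hx₁ u' b' hu', ← hx₁ (u * u') (b + b') (by
      rw [map_mul, hu, hu', AddChar.map_add_eq_mul]), hf.xu hu, (h0 _ _ hu').1, (h0 _ _ hu').2]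
    ring
  have hx0 : x₁ 0 = 0 := by
    have := hadd 0 (zero_mem _) 0 (zero_mem _)
    rw [add_zero] at this
    exact left_eq_add.1 this
  have hneg : ∀ b ∈ B, x₁ (-b) = - x₁ b := by
    intro b hb
    have := hadd b hb (-b) (neg_mem hb)
    rw [add_neg_cancel, hx0] at this
    linear_combination -this
  let S : Subring k :=
    { carrier := {l | ∀ b ∈ B, l * b ∈ B ∧ x₁ (l * b) = l * x₁ b}
      one_mem' := fun b hb => by rw [one_mul, one_mul]; exact ⟨hb, rfl⟩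
      zero_mem' := fun b hb => by rw [zero_mul, zero_mul]; exact ⟨zero_mem _, hx0⟩
      mul_mem' := by
        intro l l' hl hl' b hb
        obtain ⟨h1, h2⟩ := hl' b hb
        obtain ⟨h3, h4⟩ := hl _ h1
        rw [mul_assoc]
        exact ⟨h3, by rw [h4, h2, mul_assoc]⟩
      add_mem' := by
        intro l l' hl hl' b hb
        obtain ⟨h1, h2⟩ := hl' b hb
        obtain ⟨h3, h4⟩ := hl b hb
        rw [add_mul]
        exact ⟨add_mem h3 h1, by rw [hadd _ h3 _ h1, h2, h4, add_mul]⟩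
      neg_mem' := by
        intro l hl b hb
        obtain ⟨h3, h4⟩ := hl b hb
        rw [neg_mul]
        exact ⟨neg_mem h3, by rw [hneg _ h3, h4, neg_mul]⟩ }
  have hS : ∀ l, l ∈ S ↔ ∀ b ∈ B, l * b ∈ B ∧ x₁ (l * b) = l * x₁ b := fun _ => Iff.rfl
  have hal : ∀ g, ((al ((dt r).ker.map r)).toHomUnits g : k) ∈ S := by
    rintro ⟨⟨_, c, hc, rfl⟩, hst⟩
    have hc10 : r c 1 0 = 0 := smul_infty_eq_self_iff.1 hst
    change r c 0 0 / r c 1 1 ∈ S
    obtain ⟨ha, hd⟩ := isUnit_diag hc10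
    have hdc : r c 0 0 * r c 1 1 = 1 := by
      have h1 := (mem_ker_dt r).1 hc
      rwa [det_fin_two, hc10, mul_zero, sub_zero] at h1
    rw [hS]
    intro b hb
    obtain ⟨u, hu⟩ := exists_up_of_mem hb
    have hu' := map_conj_up hc10 hu
    refine ⟨mem_BB_of_up hu', ?_⟩
    rw [← hx₁ _ _ hu', ← hx₁ _ _ hu, xc hf h0 hb₀ hu₀ hc10 hu,
      yc0 hf hr h0 hb₀ hu₀ (NeZero.ne 2) hc10 hdc, mul_zero, add_zero]
    congr 1
    rw [eq_div_iff hd]
    linear_combination (r c 0 0) * hdc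
  have hScard : Nat.card ((al ((dt r).ker.map r)).toHomUnits.range) + 1 ≤ Nat.card S := by
    have h1 : Nat.card (Option ((al ((dt r).ker.map r)).toHomUnits.range)) =
      Nat.card ((al ((dt r).ker.map r)).toHomUnits.range) + 1 := Finite.card_option
    rw [← h1]
    have hmem : ∀ x : (al ((dt r).ker.map r)).toHomUnits.range, ((x : kˣ) : k) ∈ S := by
      rintro ⟨_, g, rfl⟩
      exact hal g
    let F : Option ((al ((dt r).ker.map r)).toHomUnits.range) → S := fun x => match x with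
      | .none => 0
      | .some x => ⟨((x : kˣ) : k), hmem x⟩
    refine Nat.card_le_card_of_injective F ?_
    intro x y hxy
    have h2 := congrArg Subtype.val hxy
    cases x with
    | none =>
      cases y with
      | none => rfl
      | some y => exact absurd h2.symm (Units.ne_zero (y : kˣ))
    | some x =>
      cases y with
      | none => exact absurd h2 (Units.ne_zero (x : kˣ))
      | some y => exact congrArg Option.some (Subtype.ext (Units.ext h2))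
  let R : AddSubgroup k := S.toAddSubgroup.map (AddMonoidHom.mulRight b₀)
  have hRB : R ≤ B := by
    rintro _ ⟨l, hl, rfl⟩
    exact ((hS l).1 hl b₀ hbB).1
  have hRc : Nat.card R = Nat.card S := by
    refine (Nat.card_congr (S.toAddSubgroup.equivMapOfInjective (AddMonoidHom.mulRight b₀) ?_).toEquiv).symm
    exact mul_left_injective₀ hb₀
  have hRB' : R = B := by
    refine AddSubgroup.eq_of_le_of_card_ge hRB ?_
    obtain ⟨m, hm⟩ := AddSubgroup.card_dvd_of_le hRB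
    have hBpos : 0 < Nat.card B := Nat.card_pos
    rcases Nat.lt_or_ge m 2 with h1 | h1
    · interval_cases m
      · omega
      · omega
    · exfalso
      have h2 : Nat.card R * 2 ≤ Nat.card R * m := Nat.mul_le_mul_left _ h1
      omega
  refine ⟨x₁ b₀ / b₀, fun u b hu => ?_⟩
  have hb : b ∈ B := mem_BB_of_up hu
  rw [← hRB'] at hb
  obtain ⟨l, hl, hlb⟩ := hb
  have hlb' : l * b₀ = b := hlb
  rw [hx₁ u b hu, ← hlb', ((hS l).1 hl b₀ hbB).2]
  field_simp

/-- **the vanishing theorem, normalized form** -/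
theorem core (hf : Cc r f) (hr : Function.Injective r) (P : Sylow p (dt r).ker)
    (hP : ∀ u ∈ P, ∃ b, r (u : (dt r).ker) = upperRightHom b)
    (hirr : ∃ g, r g 1 0 ≠ 0)
    (hs : ∀ g, ∃ x : k, x * x - (r g 0 0 + r g 1 1) * x + (r g 0 0 * r g 1 1 - r g 0 1 * r g 1 0) = 0)
    (hdet : ∃ g, (r g).val.det = 2) : Cb r f := by
  have h2 : (2 : k) ≠ 0 := NeZero.ne 2
  by_cases hB : ∃ u b, r u = upperRightHom b ∧ b ≠ 0
  · obtain ⟨u₀, b₀, hu₀, hb₀⟩ := hB
    obtain ⟨ζ, X, hX, hζ⟩ := stepA' h2 hf hr hb₀ hu₀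
    refine cb_of_sub hX ?_
    have hf' := hf.sub_cob hX
    have hζ0 : ζ = 0 := by
      by_cases h3 : p = 3
      · subst h3
        exact stepB3 (by exact_mod_cast CharP.cast_eq_zero k 3) hf' hζ hr hb₀ hu₀
      · refine stepB5 hf' h3 ?_ hζ hr P hP hirr hs hdet hb₀ hu₀
        rintro rfl
        exact h2 (by exact_mod_cast CharP.cast_eq_zero k 2)
    have h0 : ∀ u b, r u = upperRightHom b →
        (f u - ((r u).val * X * (r u).val.adjugate - X)) 1 0 = 0 ∧
        (f u - ((r u).val * X * (r u).val.adjugate - X)) 0 0 = 0 := by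
      intro u b hu
      obtain ⟨h3, h4⟩ := hζ u b hu
      rw [hζ0, zero_mul] at h3 h4
      exact ⟨h3, (mul_eq_zero.1 h4).resolve_left h2⟩
    obtain ⟨κ, hκ⟩ := stepD hf' hr h0 P hP hirr hs hb₀ hu₀
    have hY : (!![-κ / 2, 0; 0, κ / 2] : Matrix (Fin 2) (Fin 2) k).trace = 0 := by
      simp [Matrix.trace_fin_two]
      ring
    refine cb_of_sub hY ?_
    refine avg (hf'.sub_cob hY) (PP P) (index_PP P) ?_
    rintro _ ⟨u, hu, rfl⟩
    obtain ⟨b, hb⟩ := hP u hu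
    obtain ⟨h3, h4⟩ := h0 _ b hb
    have h5 := hκ _ b hb
    have h6 := hf'.e11 (u : (dt r).ker)
    change (f (u : (dt r).ker) - ((r (u : (dt r).ker)).val * X * (r (u : (dt r).ker)).val.adjugate - X)) -
      ((r (u : (dt r).ker)).val * _ * (r (u : (dt r).ker)).val.adjugate - _) = 0
    set M := f (u : (dt r).ker) - ((r (u : (dt r).ker)).val * X * (r (u : (dt r).ker)).val.adjugate - X)
    rw [sub_eq_zero]
    rw [h4, neg_zero] at h6
    ext i j
    fin_cases i <;> fin_cases j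
    · change M 0 0 = _
      rw [h4]
      simp [hb, Matrix.mul_apply, Fin.sum_univ_two, adjugate_fin_two, up00, up01, up10, up11]
    · change M 0 1 = _
      rw [h5]
      simp [hb, Matrix.mul_apply, Fin.sum_univ_two, adjugate_fin_two, up00, up01, up10, up11]
      field_simp
      ring
    · change M 1 0 = _
      rw [h3]
      simp [hb, Matrix.mul_apply, Fin.sum_univ_two, adjugate_fin_two, up00, up01, up10, up11]
    · change M 1 1 = _
      rw [h6]
      simp [hb, Matrix.mul_apply, Fin.sum_univ_two, adjugate_fin_two, up00, up01, up10, up11]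
  · push Not at hB
    refine avg hf (PP P) (index_PP P) ?_
    rintro _ ⟨u, hu, rfl⟩
    obtain ⟨b, hb⟩ := hP u hu
    have hb0 := hB _ b hb
    rw [hb0, AddChar.map_zero_eq_one] at hb
    have h1 : ((u : (dt r).ker) : Γ) = 1 := hr (by rw [hb, map_one])
    change f ((u : (dt r).ker) : Γ) = 0
    rw [h1, hf.one]

end D

end

end Fermat.Agent.Dk
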