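import Mathlib

/-!
# An orbit count for groups whose elements have one or two fixed points
-/

set_option autoImplicit false
set_option linter.unusedSectionVars false
set_option linter.style.haveILetI false

open MulAction

namespace Fermat.Agent.Dk

/-- numerical conclusion -/
theorem num {n q t f : ℕ} (hf : 0 < f) (hq : 3 ≤ q) (ht : 0 < t) (hn : n = 1 + q * f)
    (hdvd : (2 + n * (q - 2)) ∣ n * (q * t)) : q ≤ 2 * t + 1 := by
  obtain ⟨r, rfl⟩ : ∃ r, q = r + 2 := ⟨q - 2, by omega⟩
  rw [Nat.add_sub_cancel] at hdvd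
  have h1 : 2 + n * r = (r + 2) * (1 + f * r) := by rw [hn]; ring
  rw [h1, show n * ((r + 2) * t) = (r + 2) * (n * t) by ring] at hdvd
  have h2 : (1 + f * r) ∣ n * t := Nat.dvd_of_mul_dvd_mul_left (by omega) hdvd
  have h3 : n = (1 + f * r) + 2 * f := by rw [hn]; ring
  rw [h3, add_mul] at h2
  have h4 : (1 + f * r) ∣ 2 * f * t := (Nat.dvd_add_right (dvd_mul_right _ _)).1 h2
  have h5 : Nat.Coprime (1 + f * r) f := by
    rw [Nat.coprime_add_mul_left_left]
    exact Nat.coprime_one_left f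
  have h6 : (1 + f * r) ∣ 2 * t := by
    refine h5.dvd_of_dvd_mul_left ?_
    rw [show f * (2 * t) = 2 * f * t by ring]
    exact h4
  have h7 := Nat.le_of_dvd (by omega) h6
  have h8 : r ≤ f * r := Nat.le_mul_of_pos_left r hf
  omega

/-- sums of at most one large term -/
theorem exists_eq_of_sum {ι : Type*} (s : Finset ι) (a : ι → ℤ) (g R : ℤ)
    (ha : ∀ i ∈ s, a i = 0 ∨ g ≤ 2 * a i) (hg : 0 < g) (hs : ∑ i ∈ s, a i = R) (hR0 : 0 < R)
    (hR : R < g) : ∃ i ∈ s, a i = R := by
  classical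
  obtain ⟨i, hi, hi0⟩ : ∃ i ∈ s, a i ≠ 0 := by
    by_contra hcon
    push Not at hcon
    rw [Finset.sum_eq_zero hcon] at hs
    omega
  refine ⟨i, hi, ?_⟩
  rw [← Finset.add_sum_erase s a hi] at hs
  have hi1 := (ha i hi).resolve_left hi0
  have hnn : ∀ j ∈ s.erase i, 0 ≤ a j := fun j hj => by
    rcases ha j (Finset.mem_of_mem_erase hj) with h | h
    · rw [h]
    · omega
  have h0 : ∑ j ∈ s.erase i, a j = 0 := by
    refine Finset.sum_eq_zero fun j hj => ?_
    by_contra hj0
    have h1 := (ha j (Finset.mem_of_mem_erase hj)).resolve_left hj0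
    have h2 := Finset.single_le_sum hnn hj
    omega
  omega

variable {H X : Type*} [Group H] [Finite H] [MulAction H X] [Finite X]

/-- **The orbit count** -/
theorem count (Z : Subgroup H) (hZ : ∀ h : H, h ∈ Z ↔ ∀ x : X, h • x = x)
    (h12 : ∀ h : H, h ∉ Z → Nat.card (fixedBy X h) = 1 ∨ Nat.card (fixedBy X h) = 2)
    (x₀ : X) {n q t f : ℕ} (hn : Nat.card (orbit H x₀) = n)
    (hst : Nat.card (stabilizer H x₀) = q * t * Nat.card Z)
    (hn1 : Nat.card {h : H // h ∉ Z ∧ Nat.card (fixedBy X h) = 1} = n * (q - 1) * Nat.card Z)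
    (hf : 0 < f) (hq : 3 ≤ q) (ht : 0 < t) (hnf : n = 1 + q * f) : q ≤ 2 * t + 1 := by
  classical
  haveI := Fintype.ofFinite H
  haveI := Fintype.ofFinite X
  haveI : Fintype (orbitRel.Quotient H X) := Fintype.ofFinite _
  obtain ⟨z, hz⟩ : ∃ z, z = Nat.card Z := ⟨_, rfl⟩
  rw [← hz] at hst hn1
  have hz0 : 0 < z := by rw [hz]; exact Nat.card_pos
  have hos : ∀ x : X, Nat.card (orbit H x) * Nat.card (stabilizer H x) = Nat.card H := by
    intro x
    rw [← Nat.card_prod]
    exact Nat.card_congr (orbitProdStabilizerEquivGroup H x)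
  -- the order of the group
  obtain ⟨g, hg⟩ : ∃ g, g = n * (q * t) := ⟨_, rfl⟩
  have hH : Nat.card H = g * z := by
    rw [← hos x₀, hn, hst, hg]
    simp only [mul_assoc]
  have hn0 : 0 < n := by omega
  have hg0 : 0 < g := by rw [hg]; positivity
  -- the orbits
  have horb : ∀ x : X, ∃ s : ℕ, Nat.card (orbit H x) * s = g := by
    intro x
    have h1 : Z ≤ stabilizer H x := fun h hh => (hZ h).1 hh x
    obtain ⟨s, hs⟩ := Subgroup.card_dvd_of_le h1
    refine ⟨s, ?_⟩
    have h2 := hos x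
    rw [hs, hH, ← hz] at h2
    have h3 : Nat.card (orbit H x) * s * z = g * z := by rw [← h2]; ring
    exact Nat.eq_of_mul_eq_mul_right hz0 h3
  let c : orbitRel.Quotient H X → ℕ := fun ω => Nat.card (orbit H ω.out)
  have hX : Nat.card X = ∑ ω : orbitRel.Quotient H X, c ω := by
    rw [Nat.card_congr (selfEquivSigmaOrbits H X), Nat.card_sigma]
  -- Burnside
  let F : H → ℕ := fun h => Nat.card (fixedBy X h)
  have hF : ∀ h : H, F h + (if h ∉ Z ∧ F h = 1 then 1 else 0) + (if h ∈ Z then 2 else 0) =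
      2 + (if h ∈ Z then Nat.card X else 0) := by
    intro h
    by_cases hh : h ∈ Z
    · have h1 : F h = Nat.card X := by
        change Nat.card (fixedBy X h) = _
        rw [show fixedBy X h = Set.univ from Set.eq_univ_of_forall ((hZ h).1 hh)]
        exact Nat.card_congr (Equiv.Set.univ X)
      rw [if_neg (fun h' => h'.1 hh), if_pos hh, if_pos hh, h1]
      ring
    · rw [if_neg hh, if_neg hh]
      rcases h12 h hh with h1 | h1
      · have h1' : F h = 1 := h1
        rw [if_pos ⟨hh, h1'⟩, h1']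
      · have h1' : F h = 2 := h1
        rw [if_neg (fun h' => by rw [h1'] at h'; exact absurd h'.2 (by norm_num)), h1']
  have hB : ∑ h : H, F h = Nat.card (orbitRel.Quotient H X) * Nat.card H := by
    have h1 := sum_card_fixedBy_eq_card_orbits_mul_card_group H X
    rw [← Nat.card_eq_fintype_card, ← Nat.card_eq_fintype_card] at h1
    rw [← h1]
    exact Finset.sum_congr rfl fun h _ => Nat.card_eq_fintype_card
  have hsumZ : ∀ m : ℕ, ∑ h : H, (if h ∈ Z then m else 0) = z * m := by
    intro m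
    rw [← Finset.sum_filter, Finset.sum_const, smul_eq_mul, hz, Nat.card_eq_fintype_card,
      Fintype.card_subtype]
  have hsum1 : ∑ h : H, (if h ∉ Z ∧ F h = 1 then 1 else 0) = n * (q - 1) * z := by
    rw [← hn1, ← Finset.sum_filter, Finset.sum_const, smul_eq_mul, mul_one,
      Nat.card_eq_fintype_card, Fintype.card_subtype]
  have htot : Nat.card (orbitRel.Quotient H X) * (g * z) + n * (q - 1) * z + z * 2 =
      2 * (g * z) + z * Nat.card X := by
    have h1 := Finset.sum_congr rfl fun h (_ : h ∈ (Finset.univ : Finset H)) => hF h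
    rw [Finset.sum_add_distrib, Finset.sum_add_distrib, Finset.sum_add_distrib, hsumZ, hsumZ,
      hsum1, hB, Finset.sum_const, smul_eq_mul, Finset.card_univ, ← Nat.card_eq_fintype_card, hH]
      at h1
    rw [h1]
    ring
  have htot2 : Nat.card (orbitRel.Quotient H X) * g + n * (q - 1) + 2 = 2 * g + Nat.card X := by
    refine Nat.eq_of_mul_eq_mul_right hz0 ?_
    rw [add_mul, add_mul, add_mul]
    have e1 : Nat.card (orbitRel.Quotient H X) * g * z =
      Nat.card (orbitRel.Quotient H X) * (g * z) := by ring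
    have e2 : 2 * g * z = 2 * (g * z) := by ring
    rw [e1, e2, mul_comm 2 z, mul_comm (Nat.card X) z, htot]
  -- the sum over the orbits
  let ω₀ : orbitRel.Quotient H X := Quotient.mk'' x₀
  have hω₀ : c ω₀ = n := by
    change Nat.card (orbit H ω₀.out) = n
    rw [← hn]
    have h1 : orbit H ω₀.out = orbit H x₀ := by
      rw [orbit_eq_iff]
      exact Quotient.exact' (Quotient.out_eq' ω₀)
    rw [h1]
  have hS : ∑ ω : orbitRel.Quotient H X, ((g : ℤ) - c ω) = 2 * g - 2 - n * (q - 1) := by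
    rw [Finset.sum_sub_distrib, Finset.sum_const, ← Nat.cast_sum, ← hX, nsmul_eq_mul,
      Finset.card_univ, ← Nat.card_eq_fintype_card]
    have h1 : ((Nat.card (orbitRel.Quotient H X) * g + n * (q - 1) + 2 : ℕ) : ℤ) =
      ((2 * g + Nat.card X : ℕ) : ℤ) := by rw [htot2]
    push_cast [Nat.cast_sub (show 1 ≤ q by omega)] at h1
    linarith
  rw [← Finset.add_sum_erase _ _ (Finset.mem_univ ω₀), hω₀] at hS
  have hterm : ∀ ω : orbitRel.Quotient H X, (g : ℤ) - c ω = 0 ∨ (g : ℤ) ≤ 2 * ((g : ℤ) - c ω) := by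
    intro ω
    obtain ⟨s, hs⟩ := horb ω.out
    change c ω * s = g at hs
    rcases Nat.lt_or_ge s 2 with h1 | h1
    · interval_cases s
      · omega
      · left; rw [← hs]; push_cast; ring
    · right
      have h2 : c ω * 2 ≤ g := by
        rw [← hs]
        exact Nat.mul_le_mul_left _ h1
      omega
  have hgZ : (g : ℤ) = n * (q * t) := by rw [hg]; push_cast; ring
  have hnq : (n : ℤ) * q ≤ g := by
    rw [hgZ]
    have h1 : (q : ℤ) * 1 ≤ q * t := by
      exact_mod_cast Nat.mul_le_mul_left q ht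
    nlinarith
  have hn2 : (2 : ℤ) ≤ n := by
    have : q * 1 ≤ q * f := Nat.mul_le_mul_left q hf
    omega
  obtain ⟨ω, hω, hω'⟩ := exists_eq_of_sum (Finset.univ.erase ω₀)
    (fun ω => (g : ℤ) - c ω) g ((g : ℤ) - 2 - n * (q - 2)) (fun ω _ => hterm ω)
    (by exact_mod_cast hg0) (by linarith) (by nlinarith) (by
      have : (0 : ℤ) ≤ n * (q - 2) := mul_nonneg (by positivity) (by
        have : (3 : ℤ) ≤ q := by exact_mod_cast hq
        linarith)
      linarith)
  obtain ⟨s, hs⟩ := horb ω.out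
  change c ω * s = g at hs
  have h5 : c ω = 2 + n * (q - 2) := by
    have h6 : ((c ω : ℕ) : ℤ) = ((2 + n * (q - 2) : ℕ) : ℤ) := by
      push_cast [Nat.cast_sub (show 2 ≤ q by omega)]
      have h7 : (g : ℤ) - c ω = (g : ℤ) - 2 - n * (q - 2) := hω'
      linarith
    exact_mod_cast h6
  refine num (n := n) hf hq ht hnf ?_
  rw [← h5, ← hg, ← hs]
  exact dvd_mul_right _ _

end Fermat.Agent.Dk
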