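import Fermat.Agent.Dk.Count

/-!
# Subgroups of `GL₂` of a finite field acting on the projective line
-/

set_option autoImplicit false
set_option linter.unusedSectionVars false
set_option linter.style.haveILetI false

open MulAction Matrix Matrix.GeneralLinearGroup OnePoint
open scoped MatrixGroups

namespace Fermat.Agent.Dk

noncomputable section

variable {k : Type*} [Field k] [DecidableEq k]

/-- scalar matrices -/
def IsSc (g : GL (Fin 2) k) : Prop := g 1 0 = 0 ∧ g 0 1 = 0 ∧ g 0 0 = g 1 1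

theorem smul_eq_self_all {g : GL (Fin 2) k} : (∀ x : OnePoint k, g • x = x) ↔ IsSc g := by
  constructor
  · intro h
    have h1 : g 1 0 = 0 := smul_infty_eq_self_iff.1 (h ∞)
    have h2 := h ((0 : k) : OnePoint k)
    have h3 := h ((1 : k) : OnePoint k)
    rw [← fixpointPolynomial_aeval_eq_zero_iff] at h2 h3
    simp [fixpointPolynomial, h1] at h2 h3
    refine ⟨h1, h2, ?_⟩
    rw [h2] at h3
    linear_combination -h3
  · rintro ⟨h1, h2, h3⟩ x
    cases x with
    | infty => exact smul_infty_eq_self_iff.2 h1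
    | coe c =>
      rw [← fixpointPolynomial_aeval_eq_zero_iff]
      simp [fixpointPolynomial, h1, h2, h3]

theorem isSc_iff {g : GL (Fin 2) k} : IsSc g ↔ g.val ∈ Set.range (Matrix.scalar (Fin 2)) := by
  constructor
  · rintro ⟨h1, h2, h3⟩
    refine ⟨g 0 0, ?_⟩
    ext i j
    fin_cases i <;> fin_cases j <;> simp [h1, h2, h3]
  · rintro ⟨a, ha⟩
    refine ⟨?_, ?_, ?_⟩ <;> simp [← ha]

variable [NeZero (2 : k)]

/-- the fixed points of parabolic elements -/
theorem fixedBy_par {g : GL (Fin 2) k} (hg : g.IsParabolic) :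
    fixedBy (OnePoint k) g = {parabolicFixedPoint g} := by
  ext x
  rw [mem_fixedBy, Set.mem_singleton_iff]
  exact hg.smul_eq_self_iff

theorem card_fixed_par {g : GL (Fin 2) k} (hg : g.IsParabolic) :
    Nat.card (fixedBy (OnePoint k) g) = 1 := by
  rw [fixedBy_par hg, Nat.card_coe_set_eq, Set.ncard_singleton]

/-- the number of fixed points of split semisimple elements -/
theorem card_fixed_ss {g : GL (Fin 2) k} (hg : ¬ IsSc g) {x : k}
    (hx : x * x - (g 0 0 + g 1 1) * x + (g 0 0 * g 1 1 - g 0 1 * g 1 0) = 0)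
    (hpar : ¬ g.IsParabolic) : Nat.card (fixedBy (OnePoint k) g) = 2 := by
  have h2 : (2 : k) ≠ 0 := NeZero.ne 2
  obtain ⟨s, hs⟩ : ∃ s, s = 2 * x - (g 0 0 + g 1 1) := ⟨_, rfl⟩
  have hs2 : s * s = (g 0 0 - g 1 1) * (g 0 0 - g 1 1) + 4 * (g 0 1 * g 1 0) := by
    rw [hs]
    linear_combination 4 * hx
  have hs0 : s ≠ 0 := by
    intro h0
    apply hpar
    refine ⟨fun h => hg (isSc_iff.2 h), ?_⟩
    rw [discr_fin_two, trace_fin_two, det_fin_two]
    rw [h0] at hs2
    linear_combination -hs2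
  by_cases hc : g 1 0 = 0
  · have had : g 1 1 - g 0 0 ≠ 0 := by
      intro h0
      apply hs0
      have h1 : s * s = 0 := by
        rw [hs2, hc]
        linear_combination (g 1 1 - g 0 0) * h0
      exact mul_self_eq_zero.1 h1
    have hset : fixedBy (OnePoint k) g = {(∞ : OnePoint k), ((g 0 1 / (g 1 1 - g 0 0) : k) : OnePoint k)} := by
      ext y
      rw [mem_fixedBy, Set.mem_insert_iff, Set.mem_singleton_iff]
      cases y with
      | infty => simp [smul_infty_eq_self_iff, hc]
      | coe y =>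
        rw [← fixpointPolynomial_aeval_eq_zero_iff, OnePoint.coe_eq_coe]
        simp only [fixpointPolynomial, map_sub, map_mul, map_add, Polynomial.aeval_C,
          Polynomial.aeval_X, map_pow, Algebra.algebraMap_self_apply, hc, zero_mul, zero_add]
        constructor
        · intro h
          right
          rw [eq_div_iff had]
          linear_combination h
        · rintro (h | h)
          · exact absurd h.symm (OnePoint.infty_ne_coe y)
          · rw [eq_div_iff had] at h
            linear_combination h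
    rw [hset, Nat.card_coe_set_eq, Set.ncard_pair (OnePoint.infty_ne_coe _)]
  · have h2c : 2 * g 1 0 ≠ 0 := mul_ne_zero h2 hc
    have hset : fixedBy (OnePoint k) g = {(((g 0 0 - g 1 1 + s) / (2 * g 1 0) : k) : OnePoint k),
        (((g 0 0 - g 1 1 - s) / (2 * g 1 0) : k) : OnePoint k)} := by
      ext y
      rw [mem_fixedBy, Set.mem_insert_iff, Set.mem_singleton_iff]
      cases y with
      | infty =>
        rw [smul_infty_eq_self_iff]
        constructor
        · intro h; exact absurd h hc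
        · rintro (h | h) <;> exact absurd h (OnePoint.infty_ne_coe _)
      | coe y =>
        rw [← fixpointPolynomial_aeval_eq_zero_iff, OnePoint.coe_eq_coe, OnePoint.coe_eq_coe,
          eq_div_iff h2c, eq_div_iff h2c]
        simp only [fixpointPolynomial, map_sub, map_mul, map_add, Polynomial.aeval_C,
          Polynomial.aeval_X, map_pow, Algebra.algebraMap_self_apply]
        constructor
        · intro h
          have h3 : (y * (2 * g 1 0) - (g 0 0 - g 1 1 + s)) * (y * (2 * g 1 0) -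
              (g 0 0 - g 1 1 - s)) = 0 := by
            linear_combination (4 * g 1 0) * h - hs2
          rcases mul_eq_zero.1 h3 with h4 | h4
          · left; exact sub_eq_zero.1 h4
          · right; exact sub_eq_zero.1 h4
        · intro h
          have h3 : (y * (2 * g 1 0) - (g 0 0 - g 1 1 + s)) * (y * (2 * g 1 0) -
              (g 0 0 - g 1 1 - s)) = 0 := by
            rcases h with h4 | h4
            · rw [h4]; ring
            · rw [h4]; ring
          have h5 : (4 * g 1 0) * (g 1 0 * y ^ 2 + (g 1 1 - g 0 0) * y - g 0 1) = 0 := by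
            linear_combination h3 + hs2
          have h4 : (4 : k) * g 1 0 ≠ 0 := by
            have : (4 : k) * g 1 0 = 2 * (2 * g 1 0) := by ring
            rw [this]
            exact mul_ne_zero h2 h2c
          exact (mul_eq_zero.1 h5).resolve_left h4
    rw [hset, Nat.card_coe_set_eq, Set.ncard_pair]
    intro h
    rw [OnePoint.coe_eq_coe, div_left_inj' h2c] at h
    apply hs0
    have h3 : 2 * s = 0 := by linear_combination h
    exact (mul_eq_zero.1 h3).resolve_left h2

/-! ### The counting lemma -/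

section cl

variable [Finite k] (H : Subgroup (GL (Fin 2) k))

/-- the translations -/
def BB : AddSubgroup k where
  carrier := {b | upperRightHom b ∈ H}
  zero_mem' := by
    change upperRightHom (0 : k) ∈ H
    rw [AddChar.map_zero_eq_one]
    exact one_mem _
  add_mem' := fun {a b} ha hb => by
    change upperRightHom (a + b) ∈ H
    rw [AddChar.map_add_eq_mul]
    exact mul_mem ha hb
  neg_mem' := fun {a} ha => by
    change upperRightHom (-a) ∈ H
    rw [AddChar.map_neg_eq_inv]
    exact inv_mem ha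

theorem mem_BB {b : k} : b ∈ BB H ↔ upperRightHom b ∈ H := Iff.rfl

/-- the character of the Borel subgroup -/
def al : stabilizer H (∞ : OnePoint k) →* k where
  toFun g := (g.1 : GL (Fin 2) k) 0 0 / (g.1 : GL (Fin 2) k) 1 1
  map_one' := by simp
  map_mul' g h := by
    have hg : (g.1 : GL (Fin 2) k) 1 0 = 0 := smul_infty_eq_self_iff.1 g.2
    have hh : (h.1 : GL (Fin 2) k) 1 0 = 0 := smul_infty_eq_self_iff.1 h.2
    have e1 : ((g * h : stabilizer H (∞ : OnePoint k)).1 : GL (Fin 2) k) 0 0 =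
        (g.1 : GL (Fin 2) k) 0 0 * (h.1 : GL (Fin 2) k) 0 0 := by
      change ((g.1 : GL (Fin 2) k) * (h.1 : GL (Fin 2) k)) 0 0 = _
      rw [Units.val_mul, Matrix.mul_apply, Fin.sum_univ_two, hh]
      ring
    have e2 : ((g * h : stabilizer H (∞ : OnePoint k)).1 : GL (Fin 2) k) 1 1 =
        (g.1 : GL (Fin 2) k) 1 1 * (h.1 : GL (Fin 2) k) 1 1 := by
      change ((g.1 : GL (Fin 2) k) * (h.1 : GL (Fin 2) k)) 1 1 = _
      rw [Units.val_mul, Matrix.mul_apply, Fin.sum_univ_two, hg]
      ring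
    rw [e1, e2]
    exact mul_div_mul_comm _ _ _ _

/-- the scalar elements of `H` -/
def ZZ : Subgroup H where
  carrier := {h | IsSc (h : GL (Fin 2) k)}
  one_mem' := smul_eq_self_all.1 fun x => one_smul _ x
  mul_mem' := fun {a b} ha hb => by
    refine smul_eq_self_all.1 fun x => ?_
    rw [Subgroup.coe_mul, mul_smul, smul_eq_self_all.2 hb, smul_eq_self_all.2 ha]
  inv_mem' := fun {a} ha => by
    refine smul_eq_self_all.1 fun x => ?_
    rw [Subgroup.coe_inv, inv_smul_eq_iff, smul_eq_self_all.2 ha]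

theorem mem_ZZ {h : H} : h ∈ ZZ H ↔ IsSc (h : GL (Fin 2) k) := Iff.rfl

theorem mem_ZZ' (h : H) : h ∈ ZZ H ↔ ∀ x : OnePoint k, h • x = x :=
  (smul_eq_self_all (g := (h : GL (Fin 2) k))).symm

omit [DecidableEq k] [NeZero (2 : k)] [Finite k] in
theorem isUnit_diag {g : GL (Fin 2) k} (h : g 1 0 = 0) : g 0 0 ≠ 0 ∧ g 1 1 ≠ 0 := by
  have h1 : g.val.det ≠ 0 := g.det_ne_zero
  rw [det_fin_two, h, mul_zero, sub_zero] at h1
  exact ⟨left_ne_zero_of_mul h1, right_ne_zero_of_mul h1⟩

/-- scalar part of an element with equal eigenvalues -/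
theorem exists_sc {g : GL (Fin 2) k} (hg : g ∈ H) (h : g 1 0 = 0) (h' : g 0 0 = g 1 1) :
    ∃ z : H, IsSc (z : GL (Fin 2) k) ∧ (z : GL (Fin 2) k) 0 0 = g 0 0 := by
  classical
  haveI := Fintype.ofFinite k
  have h0 := (isUnit_diag h).1
  have key : ∀ m : ℕ, ((g ^ m : GL (Fin 2) k) 0 0 = g 0 0 ^ m ∧ (g ^ m : GL (Fin 2) k) 1 1 = g 0 0 ^ m ∧
      (g ^ m : GL (Fin 2) k) 1 0 = 0 ∧ (g ^ m : GL (Fin 2) k) 0 1 * g 0 0 = m * g 0 0 ^ m * g 0 1) := by
    intro m
    induction m with
    | zero => simp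
    | succ m ih =>
      obtain ⟨h1, h2, h3, h4⟩ := ih
      rw [pow_succ, Units.val_mul]
      simp only [Matrix.mul_apply, Fin.sum_univ_two, h1, h2, h3, h, ← h']
      refine ⟨by ring, by ring, by ring, ?_⟩
      push_cast
      linear_combination g 0 0 * h4
  obtain ⟨h1, h2, h3, h4⟩ := key (Fintype.card k)
  refine ⟨⟨g ^ Fintype.card k, pow_mem hg _⟩, ⟨h3, ?_, by rw [h1, h2]⟩, by rw [h1, FiniteField.pow_card]⟩
  rw [Nat.cast_card_eq_zero, zero_mul, zero_mul] at h4
  exact (mul_eq_zero.1 h4).resolve_right h0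

theorem card_ker_al : Nat.card ((al H).toHomUnits.ker) = Nat.card (BB H) * Nat.card (ZZ H) := by
  rw [← Nat.card_prod]
  symm
  have hU : ∀ b : k, (upperRightHom b : GL (Fin 2) k) • (∞ : OnePoint k) = ∞ := fun b => by
    rw [smul_infty_eq_self_iff]; simp
  let f : BB H × ZZ H → (al H).toHomUnits.ker := fun x =>
    ⟨⟨⟨upperRightHom (x.1 : k), x.1.2⟩ * x.2.1, by
      rw [mem_stabilizer_iff, mul_smul, (mem_ZZ' H _).1 x.2.2]
      exact hU _⟩, by
      rw [MonoidHom.mem_ker]
      apply Units.ext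
      have h1 := x.2.2
      obtain ⟨h2, h3, h4⟩ := (mem_ZZ H).1 x.2.2
      have h5 := (isUnit_diag h2).2
      change (_ : k) / _ = 1
      change ((upperRightHom (x.1 : k) : GL (Fin 2) k) * ((x.2.1 : H) : GL (Fin 2) k)).val 0 0 /
        ((upperRightHom (x.1 : k) : GL (Fin 2) k) * ((x.2.1 : H) : GL (Fin 2) k)).val 1 1 = 1
      rw [Units.val_mul]
      simp only [Matrix.mul_apply, Fin.sum_univ_two, h2, h3, h4, upperRightHom_apply]
      simp [h5]⟩
  have hf0 : ∀ x, ((((f x).1 : stabilizer H (∞ : OnePoint k)).1 : H) : GL (Fin 2) k) =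
      upperRightHom (x.1 : k) * ((x.2.1 : H) : GL (Fin 2) k) := fun x => rfl
  refine Nat.card_congr (Equiv.ofBijective f ⟨?_, ?_⟩)
  · rintro ⟨b, z⟩ ⟨b', z'⟩ h
    have h1 := congrArg (fun y : (al H).toHomUnits.ker => ((((y.1 : stabilizer H (∞ : OnePoint k)).1 : H) : GL (Fin 2) k)).val) h
    simp only [hf0, Units.val_mul] at h1
    obtain ⟨h2, h3, h4⟩ := (mem_ZZ H).1 z.2
    obtain ⟨h2', h3', h4'⟩ := (mem_ZZ H).1 z'.2
    have h5 := (isUnit_diag h2).2
    have e00 := congrFun (congrFun h1 0) 0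
    have e01 := congrFun (congrFun h1 0) 1
    have e11 := congrFun (congrFun h1 1) 1
    simp only [Matrix.mul_apply, Fin.sum_univ_two, h2, h3, h2', h3', upperRightHom_apply] at e00 e01 e11
    simp at e00 e01 e11
    have hb : (b : k) = b' := by
      rw [e11] at e01
      refine mul_right_cancel₀ ?_ e01
      rw [← e11]
      exact h5
    refine Prod.ext (Subtype.ext hb) (Subtype.ext (Subtype.ext (Units.ext ?_)))
    ext i j
    fin_cases i <;> fin_cases j
    · exact e00
    · change ((z.1 : H) : GL (Fin 2) k) 0 1 = ((z'.1 : H) : GL (Fin 2) k) 0 1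
      rw [h3, h3']
    · change ((z.1 : H) : GL (Fin 2) k) 1 0 = ((z'.1 : H) : GL (Fin 2) k) 1 0
      rw [h2, h2']
    · exact e11
  · rintro ⟨⟨⟨g, hg⟩, hg2⟩, hg3⟩
    have h10 : g 1 0 = 0 := smul_infty_eq_self_iff.1 hg2
    have hd := isUnit_diag h10
    have h00 : g 0 0 = g 1 1 := by
      rw [MonoidHom.mem_ker] at hg3
      have h1 : g 0 0 / g 1 1 = 1 := congrArg Units.val hg3
      rwa [div_eq_one_iff_eq hd.2] at h1
    obtain ⟨z, hz, hz0⟩ := exists_sc H hg h10 h00
    obtain ⟨hz1, hz2, hz3⟩ := hz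
    have hval : (upperRightHom (g 0 1 / g 0 0) : GL (Fin 2) k) * (z : GL (Fin 2) k) = g := by
      apply Units.ext
      rw [Units.val_mul]
      ext i j
      fin_cases i <;> fin_cases j <;>
        simp [Matrix.mul_apply, Fin.sum_univ_two, upperRightHom_apply, hz1, hz2, ← hz3, hz0, h10, ← h00, hd.1]
    have hb : (upperRightHom (g 0 1 / g 0 0) : GL (Fin 2) k) ∈ H := by
      have h1 : (upperRightHom (g 0 1 / g 0 0) : GL (Fin 2) k) = g * (z : GL (Fin 2) k)⁻¹ :=
        eq_mul_inv_of_mul_eq hval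
      rw [h1]
      exact mul_mem hg (inv_mem z.2)
    refine ⟨(⟨g 0 1 / g 0 0, hb⟩, ⟨z, ⟨hz1, hz2, hz3⟩⟩), ?_⟩
    apply Subtype.ext
    apply Subtype.ext
    apply Subtype.ext
    exact hval

/-- the order of the stabilizer of `∞` -/
theorem card_stab : Nat.card (stabilizer H (∞ : OnePoint k)) =
    Nat.card (BB H) * Nat.card ((al H).toHomUnits.range) * Nat.card (ZZ H) := by
  rw [Subgroup.card_eq_card_quotient_mul_card_subgroup ((al H).toHomUnits.ker),
    Nat.card_congr (QuotientGroup.quotientKerEquivRange (al H).toHomUnits).toEquiv, card_ker_al]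
  ring

theorem card_fixed_conj {g h : H} : Nat.card (fixedBy (OnePoint k) (g * h * g⁻¹)) =
    Nat.card (fixedBy (OnePoint k) h) := by
  refine Nat.card_congr ⟨fun x => ⟨g⁻¹ • x.1, ?_⟩, fun x => ⟨g • x.1, ?_⟩, fun x => ?_, fun x => ?_⟩
  · have h1 := x.2
    rw [mem_fixedBy] at h1 ⊢
    conv_rhs => rw [← h1]
    rw [← mul_smul, ← mul_smul]
    congr 1
    group
  · have h1 := x.2
    rw [mem_fixedBy] at h1 ⊢
    conv_rhs => rw [← h1]
    rw [← mul_smul, ← mul_smul]
    congr 1
    group
  · exact Subtype.ext (smul_inv_smul _ _)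
  · exact Subtype.ext (inv_smul_smul _ _)

/-- the elements with exactly one fixed point `x` -/
def Q1 (x : OnePoint k) : Type _ := {h : H // h ∉ ZZ H ∧ fixedBy (OnePoint k) h = {x}}

instance : Finite (OnePoint k) := inferInstanceAs (Finite (Option k))

instance (x : OnePoint k) : Finite (Q1 H x) :=
  inferInstanceAs (Finite {h : H // h ∉ ZZ H ∧ fixedBy (OnePoint k) h = {x}})

theorem card_Q1_conj (g : H) (x : OnePoint k) : Nat.card (Q1 H (g • x)) = Nat.card (Q1 H x) := by
  have key : ∀ (g h : H) (x : OnePoint k), h ∉ ZZ H ∧ fixedBy (OnePoint k) h = {x} →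
      (g * h * g⁻¹) ∉ ZZ H ∧ fixedBy (OnePoint k) (g * h * g⁻¹) = {g • x} := by
    rintro g h x ⟨h1, h2⟩
    constructor
    · intro h3
      apply h1
      rw [mem_ZZ'] at h3 ⊢
      intro y
      have h4 := h3 (g • y)
      rw [mul_smul, mul_smul, inv_smul_smul] at h4
      exact smul_left_cancel g h4
    · ext y
      have h4 : g⁻¹ • y ∈ fixedBy (OnePoint k) h ↔ g⁻¹ • y = x := by rw [h2, Set.mem_singleton_iff]
      rw [mem_fixedBy] at h4
      rw [mem_fixedBy, Set.mem_singleton_iff, mul_smul, mul_smul, ← eq_inv_smul_iff, h4,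
        inv_smul_eq_iff]
  refine Nat.card_congr ⟨fun h => ⟨g⁻¹ * h.1 * g, ?_⟩, fun h => ⟨g * h.1 * g⁻¹, key g h.1 x h.2⟩,
    fun h => Subtype.ext ?_, fun h => Subtype.ext ?_⟩
  · have := key g⁻¹ h.1 (g • x) h.2
    rwa [inv_inv, inv_smul_smul] at this
  · change g * (g⁻¹ * h.1 * g) * g⁻¹ = h.1
    group
  · change g⁻¹ * (g * h.1 * g⁻¹) * g = h.1
    group

theorem card_Q1_infty : Nat.card (Q1 H (∞ : OnePoint k)) =
    (Nat.card (BB H) - 1) * Nat.card (ZZ H) := by
  have h1 : Nat.card ((al H).toHomUnits.ker) = Nat.card (Q1 H (∞ : OnePoint k)) + Nat.card (ZZ H) := by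
    rw [← Nat.card_sum]
    symm
    have hal : ∀ g : stabilizer H (∞ : OnePoint k), g ∈ (al H).toHomUnits.ker ↔
        ((g : H) : GL (Fin 2) k) 0 0 = ((g : H) : GL (Fin 2) k) 1 1 := by
      intro g
      have h10 : ((g : H) : GL (Fin 2) k) 1 0 = 0 := smul_infty_eq_self_iff.1 g.2
      rw [MonoidHom.mem_ker, Units.ext_iff]
      change ((g : H) : GL (Fin 2) k) 0 0 / ((g : H) : GL (Fin 2) k) 1 1 = 1 ↔ _
      exact div_eq_one_iff_eq (isUnit_diag h10).2
    have hQ : ∀ h : Q1 H (∞ : OnePoint k), ∃ hs : h.1 ∈ stabilizer H (∞ : OnePoint k),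
        (⟨h.1, hs⟩ : stabilizer H (∞ : OnePoint k)) ∈ (al H).toHomUnits.ker := by
      rintro ⟨h, h1, h2⟩
      have h3 : (∞ : OnePoint k) ∈ fixedBy (OnePoint k) h := by rw [h2]; rfl
      refine ⟨h3, ?_⟩
      rw [hal]
      have h10 : (h : GL (Fin 2) k) 1 0 = 0 := smul_infty_eq_self_iff.1 h3
      by_contra hne
      have h11 : (h : GL (Fin 2) k) 1 1 - (h : GL (Fin 2) k) 0 0 ≠ 0 := sub_ne_zero.2 (Ne.symm hne)
      have h4 : ((((h : GL (Fin 2) k) 0 1 / ((h : GL (Fin 2) k) 1 1 - (h : GL (Fin 2) k) 0 0) : k)) :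
          OnePoint k) ∈ fixedBy (OnePoint k) h := by
        rw [mem_fixedBy]
        change (h : GL (Fin 2) k) • (_ : OnePoint k) = _
        rw [← fixpointPolynomial_aeval_eq_zero_iff]
        simp only [fixpointPolynomial, map_sub, map_mul, map_add, Polynomial.aeval_C,
          Polynomial.aeval_X, map_pow, Algebra.algebraMap_self_apply, h10, zero_mul, zero_add]
        field_simp
        ring
      rw [h2, Set.mem_singleton_iff] at h4
      exact OnePoint.coe_ne_infty _ h4
    have hZ : ∀ z : ZZ H, (z : H) ∈ stabilizer H (∞ : OnePoint k) := fun z =>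
      (mem_ZZ' H _).1 z.2 _
    let f : Q1 H (∞ : OnePoint k) ⊕ ZZ H → (al H).toHomUnits.ker := fun x => match x with
      | .inl h => ⟨⟨h.1, (hQ h).1⟩, (hQ h).2⟩
      | .inr z => ⟨⟨z, hZ z⟩, (hal _).2 z.2.2.2⟩
    have hfl : ∀ h, (((f (.inl h)).1 : stabilizer H (∞ : OnePoint k)) : H) = h.1 := fun _ => rfl
    have hfr : ∀ z, (((f (.inr z)).1 : stabilizer H (∞ : OnePoint k)) : H) = z.1 := fun _ => rfl
    refine Nat.card_congr (Equiv.ofBijective f ⟨?_, ?_⟩)
    · intro x y hxy
      have h2 := congrArg (fun u : (al H).toHomUnits.ker => ((u.1 : stabilizer H (∞ : OnePoint k)) : H)) hxy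
      cases x with
      | inl x =>
        cases y with
        | inl y => exact congrArg Sum.inl (Subtype.ext h2)
        | inr y =>
          exfalso
          apply x.2.1
          have h3 : x.1 = y.1 := h2
          rw [h3]
          exact y.2
      | inr x =>
        cases y with
        | inl y =>
          exfalso
          apply y.2.1
          have h3 : x.1 = y.1 := h2
          rw [← h3]
          exact x.2
        | inr y => exact congrArg Sum.inr (Subtype.ext h2)
    · rintro ⟨⟨h, hs⟩, hk⟩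
      by_cases hz : h ∈ ZZ H
      · exact ⟨.inr ⟨h, hz⟩, rfl⟩
      · refine ⟨.inl ⟨h, hz, ?_⟩, rfl⟩
        rw [hal] at hk
        change (h : GL (Fin 2) k) 0 0 = (h : GL (Fin 2) k) 1 1 at hk
        have h10 : (h : GL (Fin 2) k) 1 0 = 0 := smul_infty_eq_self_iff.1 hs
        have hpar : (h : GL (Fin 2) k).IsParabolic := by
          rw [GeneralLinearGroup.isParabolic_iff_of_upperTriangular h10]
          refine ⟨hk, fun h01 => hz ⟨h10, h01, hk⟩⟩
        have h5 := fixedBy_par hpar
        change fixedBy (OnePoint k) (h : GL (Fin 2) k) = _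
        rw [h5, parabolicFixedPoint, if_pos h10]
  rw [card_ker_al] at h1
  rw [Nat.sub_mul, one_mul, h1, Nat.add_sub_cancel]

/-- the number of elements with one fixed point -/
theorem card_one_fixed
    (hSyl : ∀ h ∈ H, h.IsParabolic → parabolicFixedPoint h ∈ orbit H (∞ : OnePoint k))
    (hs : ∀ h ∈ H, ∃ x : k, x * x - (h 0 0 + h 1 1) * x + (h 0 0 * h 1 1 - h 0 1 * h 1 0) = 0) :
    Nat.card {h : H // h ∉ ZZ H ∧ Nat.card (fixedBy (OnePoint k) h) = 1} =
      Nat.card (orbit H (∞ : OnePoint k)) * (Nat.card (BB H) - 1) * Nat.card (ZZ H) := by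
  have hpar : ∀ h : H, h ∉ ZZ H → Nat.card (fixedBy (OnePoint k) h) = 1 →
      (h : GL (Fin 2) k).IsParabolic := by
    intro h h1 h2
    by_contra h3
    obtain ⟨x, hx⟩ := hs h h.2
    have h4 := card_fixed_ss (g := (h : GL (Fin 2) k)) h1 hx h3
    change Nat.card (fixedBy (OnePoint k) (h : GL (Fin 2) k)) = 1 at h2
    omega
  let φ : {h : H // h ∉ ZZ H ∧ Nat.card (fixedBy (OnePoint k) h) = 1} → orbit H (∞ : OnePoint k) :=
    fun h => ⟨parabolicFixedPoint (h.1 : GL (Fin 2) k), hSyl _ h.1.2 (hpar _ h.2.1 h.2.2)⟩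
  have hfin : Finite (orbit H (∞ : OnePoint k)) := inferInstance
  haveI := Fintype.ofFinite (orbit H (∞ : OnePoint k))
  rw [← Nat.card_congr (Equiv.sigmaFiberEquiv φ), Nat.card_sigma]
  have hfib : ∀ x : orbit H (∞ : OnePoint k), Nat.card {h // φ h = x} =
      (Nat.card (BB H) - 1) * Nat.card (ZZ H) := by
    rintro ⟨_, g, rfl⟩
    rw [← card_Q1_infty, ← card_Q1_conj H g]
    refine Nat.card_congr ⟨fun h => ⟨h.1.1, h.1.2.1, ?_⟩, fun h => ⟨⟨h.1, h.2.1, ?_⟩, ?_⟩,
      fun h => rfl, fun h => rfl⟩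
    · have h1 := h.2
      have h2 := congrArg Subtype.val h1
      change parabolicFixedPoint (h.1.1 : GL (Fin 2) k) = g • (∞ : OnePoint k) at h2
      rw [← h2]
      exact fixedBy_par (hpar _ h.1.2.1 h.1.2.2)
    · have h1 := h.2.2
      change fixedBy (OnePoint k) h.1 = {g • (∞ : OnePoint k)} at h1
      rw [h1, Nat.card_coe_set_eq, Set.ncard_singleton]
    · apply Subtype.ext
      change parabolicFixedPoint (h.1 : GL (Fin 2) k) = g • (∞ : OnePoint k)
      have h1 := h.2.2
      change fixedBy (OnePoint k) h.1 = {g • (∞ : OnePoint k)} at h1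
      have h2 : Nat.card (fixedBy (OnePoint k) h.1) = 1 := by
        rw [h1, Nat.card_coe_set_eq, Set.ncard_singleton]
      have h3 := fixedBy_par (hpar _ h.2.1 h2)
      change fixedBy (OnePoint k) h.1 = _ at h3
      rw [h1] at h3
      exact (Set.singleton_injective h3).symm
  simp only [hfib]
  rw [Finset.sum_const, Finset.card_univ, smul_eq_mul, mul_assoc, ← Nat.card_eq_fintype_card]

/-- **The counting lemma.** -/
theorem cl (hs : ∀ h ∈ H, ∃ x : k, x * x - (h 0 0 + h 1 1) * x + (h 0 0 * h 1 1 - h 0 1 * h 1 0) = 0)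
    (hSyl : ∀ h ∈ H, h.IsParabolic → parabolicFixedPoint h ∈ orbit H (∞ : OnePoint k))
    (hinf : ∃ h ∈ H, h • (∞ : OnePoint k) ≠ ∞) (hq : 3 ≤ Nat.card (BB H)) :
    Nat.card (BB H) ≤ 2 * Nat.card ((al H).toHomUnits.range) + 1 := by
  -- the finite part of the orbit
  let R : Set k := {r | (r : OnePoint k) ∈ orbit H (∞ : OnePoint k)}
  have hR : ∀ b ∈ BB H, ∀ r ∈ R, r + b ∈ R := by
    intro b hb r hr
    change ((r + b : k) : OnePoint k) ∈ orbit H (∞ : OnePoint k)
    have h1 : ((r + b : k) : OnePoint k) = (⟨upperRightHom b, hb⟩ : H) • (r : OnePoint k) := by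
      change _ = (upperRightHom b : GL (Fin 2) k) • (r : OnePoint k)
      rw [smul_some_eq_ite]
      simp [add_comm]
    rw [h1]
    obtain ⟨g, hg⟩ := hr
    refine ⟨⟨upperRightHom b, hb⟩ * g, ?_⟩
    change (_ * g) • (∞ : OnePoint k) = _
    rw [mul_smul]
    congr 1
  have hRr : ∃ r, r ∈ R := by
    obtain ⟨h, hh, hne⟩ := hinf
    cases hx : (h • (∞ : OnePoint k)) with
    | infty => exact absurd hx hne
    | coe r => exact ⟨r, ⟨⟨h, hh⟩, hx⟩⟩
  have hRc : (QuotientAddGroup.mk : k → k ⧸ BB H) ⁻¹' (QuotientAddGroup.mk '' R) = R := by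
    ext r
    constructor
    · rintro ⟨r', hr', he⟩
      have h1 : -r' + r ∈ BB H := QuotientAddGroup.eq.1 he
      have h2 := hR _ h1 _ hr'
      rwa [add_neg_cancel_left] at h2
    · intro hr
      exact ⟨r, hr, rfl⟩
  have hRcard : Nat.card R = Nat.card (BB H) * Nat.card ((QuotientAddGroup.mk : k → k ⧸ BB H) '' R) := by
    rw [← Nat.card_prod, ← Nat.card_congr (QuotientAddGroup.preimageMkEquivAddSubgroupProdSet (BB H)
      ((QuotientAddGroup.mk : k → k ⧸ BB H) '' R)), hRc]
  have horb : Nat.card (orbit H (∞ : OnePoint k)) = 1 + Nat.card R := by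
    have h1 : Nat.card (Option R) = Nat.card R + 1 := Finite.card_option
    rw [add_comm, ← h1]
    symm
    let f : Option R → orbit H (∞ : OnePoint k) := fun x => match x with
      | .none => ⟨∞, mem_orbit_self _⟩
      | .some r => ⟨((r : k) : OnePoint k), r.2⟩
    refine Nat.card_congr (Equiv.ofBijective f ⟨?_, ?_⟩)
    · intro x y hxy
      have h2 := congrArg Subtype.val hxy
      cases x with
      | none =>
        cases y with
        | none => rfl
        | some y => exact absurd h2 (OnePoint.infty_ne_coe (y : k))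
      | some x =>
        cases y with
        | none => exact absurd h2 (OnePoint.coe_ne_infty (x : k))
        | some y =>
          have h3 : ((x : k) : OnePoint k) = ((y : k) : OnePoint k) := h2
          exact congrArg Option.some (Subtype.ext (OnePoint.coe_eq_coe.1 h3))
    · rintro ⟨x, hx⟩
      cases x with
      | infty => exact ⟨Option.none, rfl⟩
      | coe r => exact ⟨Option.some ⟨r, hx⟩, rfl⟩
  have hf : 0 < Nat.card ((QuotientAddGroup.mk : k → k ⧸ BB H) '' R) := by
    obtain ⟨r, hr⟩ := hRr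
    haveI : Nonempty ((QuotientAddGroup.mk : k → k ⧸ BB H) '' R) := ⟨⟨_, r, hr, rfl⟩⟩
    exact Nat.card_pos
  refine count (ZZ H) (mem_ZZ' H) ?_ (∞ : OnePoint k) rfl (card_stab H) (card_one_fixed H hSyl hs)
    hf hq Nat.card_pos ?_
  · intro h hh
    by_cases hpar : (h : GL (Fin 2) k).IsParabolic
    · left; exact card_fixed_par hpar
    · right
      obtain ⟨x, hx⟩ := hs h h.2
      exact card_fixed_ss hh hx hpar
  · rw [horb, hRcard]

end cl

end

end Fermat.Agent.Dk
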