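import Fermat.Agent.Dk.Coc2
import Fermat.Agent.TWG.Irr
import Fermat.Agent.Sel.TWHyp

/-!
# The first cohomology of the image with values in `ad⁰(1)` vanishes
-/

set_option autoImplicit false
set_option linter.unusedSectionVars false
set_option linter.style.haveILetI false

open Matrix Matrix.GeneralLinearGroup
open scoped MatrixGroups

namespace Fermat.Agent.Dk

noncomputable section

open Fermat.Agent.Sel Fermat.Agent.GalRep

variable {k : Type} [Field k]

section conj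

variable {Γ : Type*} [Group Γ] {r : Γ →* GL (Fin 2) k} {f : Γ → Matrix (Fin 2) (Fin 2) k}

theorem adj_eq (g : GL (Fin 2) k) : g.val.adjugate = g.val.det • (g⁻¹).val := by
  have h1 : g.val.adjugate * (g.val * (g⁻¹).val) = g.val.det • (g⁻¹).val := by
    rw [← mul_assoc, adjugate_mul, smul_mul_assoc, one_mul]
  rwa [← Units.val_mul, mul_inv_cancel, Units.val_one, mul_one] at h1

theorem det_conj' (γ g : GL (Fin 2) k) : ((γ * g * γ⁻¹ : GL (Fin 2) k).val).det = g.val.det := by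
  rw [Units.val_mul, Units.val_mul, Matrix.det_mul, Matrix.det_mul, mul_right_comm, ← Matrix.det_mul,
    ← Units.val_mul, mul_inv_cancel, Units.val_one, Matrix.det_one, one_mul]

theorem adj_conj (γ g : GL (Fin 2) k) :
    (γ * g * γ⁻¹ : GL (Fin 2) k).val.adjugate = γ.val * g.val.adjugate * (γ⁻¹).val := by
  rw [adj_eq, adj_eq, det_conj', mul_smul_comm, smul_mul_assoc, ← Units.val_mul, ← Units.val_mul]
  congr 2
  group

theorem inv_val_mul (γ : GL (Fin 2) k) : (γ⁻¹).val * γ.val = 1 := by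
  rw [← Units.val_mul, inv_mul_cancel, Units.val_one]

theorem val_mul_inv (γ : GL (Fin 2) k) : γ.val * (γ⁻¹).val = 1 := by
  rw [← Units.val_mul, mul_inv_cancel, Units.val_one]

theorem Cc.conj (hf : Cc r f) (γ : GL (Fin 2) k) :
    Cc ((MulAut.conj γ).toMonoidHom.comp r) fun g => γ.val * f g * (γ⁻¹).val := by
  refine ⟨fun g h => ?_, fun g => ?_⟩
  · have e1 : (((MulAut.conj γ).toMonoidHom.comp r) g) = γ * r g * γ⁻¹ := rfl
    rw [e1, adj_conj, hf.mul, Units.val_mul, Units.val_mul]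
    have e2 : γ.val * (r g).val * (γ⁻¹).val * (γ.val * f h * (γ⁻¹).val) *
        (γ.val * (r g).val.adjugate * (γ⁻¹).val) =
        γ.val * (r g).val * ((γ⁻¹).val * γ.val) * f h * ((γ⁻¹).val * γ.val) *
        (r g).val.adjugate * (γ⁻¹).val := by noncomm_ring
    rw [e2, inv_val_mul, mul_one, mul_one]
    noncomm_ring
  · rw [Matrix.trace_mul_comm, ← mul_assoc, inv_val_mul, one_mul, hf.tr]

theorem Cb.of_conj (γ : GL (Fin 2) k)
    (h : Cb ((MulAut.conj γ).toMonoidHom.comp r) fun g => γ.val * f g * (γ⁻¹).val) : Cb r f := by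
  obtain ⟨X, hX, h⟩ := h
  refine ⟨(γ⁻¹).val * X * γ.val, ?_, fun g => ?_⟩
  · rw [Matrix.trace_mul_comm, ← mul_assoc, val_mul_inv, one_mul, hX]
  · have h1 : γ.val * f g * (γ⁻¹).val = (γ * r g * γ⁻¹ : GL (Fin 2) k).val * X *
      (γ * r g * γ⁻¹ : GL (Fin 2) k).val.adjugate - X := h g
    rw [adj_conj, Units.val_mul, Units.val_mul] at h1
    have h2 : f g = (γ⁻¹).val * (γ.val * f g * (γ⁻¹).val) * γ.val := by
      have e2 : (γ⁻¹).val * (γ.val * f g * (γ⁻¹).val) * γ.val =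
        ((γ⁻¹).val * γ.val) * f g * ((γ⁻¹).val * γ.val) := by noncomm_ring
      rw [e2, inv_val_mul, mul_one, one_mul]
    rw [h2, h1]
    have e3 : (γ⁻¹).val * (γ.val * (r g).val * (γ⁻¹).val * X *
        (γ.val * (r g).val.adjugate * (γ⁻¹).val) - X) * γ.val =
        ((γ⁻¹).val * γ.val) * (r g).val * (γ⁻¹).val * X * γ.val * (r g).val.adjugate *
        ((γ⁻¹).val * γ.val) - (γ⁻¹).val * X * γ.val := by noncomm_ring
    rw [e3, inv_val_mul, mul_one, one_mul]
    noncomm_ring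

end conj

/-- **the vanishing theorem for subgroups of `GL₂`** -/
theorem core' [DecidableEq k] [Finite k] (h2 : (2 : k) ≠ 0) (p : ℕ) [Fact p.Prime] [CharP k p]
    {Γ : Type*} [Group Γ] [Finite Γ] {r : Γ →* GL (Fin 2) k} {f : Γ → Matrix (Fin 2) (Fin 2) k}
    (hf : Cc r f) (hr : Function.Injective r)
    (hirr : ∀ γ : GL (Fin 2) k, ∃ g, (γ * r g * γ⁻¹) 1 0 ≠ 0)
    (hs : ∀ g, ∃ α β : k, (r g).val.trace = α + β ∧ (r g).val.det = α * β)
    (hdet : ∃ g, (r g).val.det = 2) : Cb r f := by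
  haveI : NeZero (2 : k) := ⟨h2⟩
  obtain ⟨γ, P, hP⟩ := exists_conj_upper p r
  refine Cb.of_conj γ (core (hf.conj γ) ?_ P hP (hirr γ) ?_ ?_)
  · intro a b hab
    exact hr ((MulAut.conj γ).injective hab)
  · intro g
    obtain ⟨α, β, h3, h4⟩ := hs g
    refine ⟨α, ?_⟩
    have e1 : (((MulAut.conj γ).toMonoidHom.comp r) g) = γ * r g * γ⁻¹ := rfl
    have e2 : (γ * r g * γ⁻¹ : GL (Fin 2) k).val.trace = α + β := by
      rw [← h3, Units.val_mul, Units.val_mul, Matrix.trace_mul_comm, ← mul_assoc, inv_val_mul, one_mul]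
    have e3 : (γ * r g * γ⁻¹ : GL (Fin 2) k).val.det = α * β := by rw [det_conj', h4]
    rw [trace_fin_two] at e2
    rw [det_fin_two] at e3
    rw [e1]
    linear_combination -α * e2 + e3
  · obtain ⟨g, hg⟩ := hdet
    exact ⟨g, by rw [← hg]; exact det_conj' γ (r g)⟩

local notation "𝒢" => (AlgebraicClosure ℚ) ≃ₐ[ℚ] (AlgebraicClosure ℚ)

/-- **`H¹` of the image with values in `ad⁰(1)` vanishes.** -/
theorem hH1' [Finite k] (h2 : (2 : k) ≠ 0) (p : ℕ) [Fact p.Prime] [CharP k p]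
    {ρ : 𝒢 →* M2 k} (hno : TWG.NoLine ρ)
    (hsplit : ∀ σ, ∃ α β, (ρ σ).trace = α + β ∧ (ρ σ).det = α * β)
    (hdet : ∃ σ, (ρ σ).det = 2) (c : 𝒢 → M2 k) (hc : TCoc ρ c)
    (hc0 : ∀ σ, ρ σ = 1 → c σ = 0) : TCob ρ c := by
  classical
  let r₀ : 𝒢 →* GL (Fin 2) k := ρ.toHomUnits
  have hr₀ : ∀ σ, (r₀ σ).val = ρ σ := fun _ => rfl
  have hr₀i : ∀ σ, ((r₀ σ)⁻¹).val = ρ σ⁻¹ := fun σ => by rw [← map_inv]; rfl
  have hcw : ∀ σ τ, r₀ σ = r₀ τ → c σ = c τ := by
    intro σ τ h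
    have h1 : ρ (τ⁻¹ * σ) = 1 := by
      rw [← hr₀, map_mul, map_inv, h, inv_mul_cancel]
      rfl
    have h3 := hc.mul τ (τ⁻¹ * σ)
    rw [mul_inv_cancel_left, hc0 _ h1, mul_zero, zero_mul, smul_zero, add_zero] at h3
    exact h3
  let G := r₀.range
  choose s hs using fun g : G => g.2
  let f : G → M2 k := fun g => c (s g)
  have hfs : ∀ (g : G) (σ : 𝒢), r₀ σ = g → f g = c σ := fun g σ h =>
    hcw _ _ ((hs g).trans h.symm)
  have hf : Cc G.subtype f := by
    refine ⟨fun g h => ?_, fun g => hc.tr _⟩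
    rw [hfs (g * h) (s g * s h) (by rw [map_mul, hs, hs]; rfl), hc.mul]
    change _ = c (s g) + (g : GL (Fin 2) k).val * c (s h) * (g : GL (Fin 2) k).val.adjugate
    rw [adj_eq, mul_smul_comm, ← hs g, hr₀, hr₀i]
  have key := core' h2 p hf G.subtype_injective ?_ ?_ ?_
  · obtain ⟨X, hX, h⟩ := key
    refine ⟨X, hX, fun σ => ?_⟩
    have h3 := h ⟨r₀ σ, σ, rfl⟩
    rw [hfs _ σ rfl] at h3
    change c σ = (r₀ σ).val * X * (r₀ σ).val.adjugate - X at h3
    rw [adj_eq, mul_smul_comm, hr₀, hr₀i] at h3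
    exact h3
  · intro γ
    by_contra hcon
    push Not at hcon
    let N : M2 k := !![0, 1; 0, 0]
    refine hno ((γ⁻¹).val * N * γ.val) ?_ ?_ fun σ => ?_
    · rw [Matrix.trace_mul_comm, ← mul_assoc, val_mul_inv, one_mul]
      simp [N, Matrix.trace_fin_two]
    · intro h
      have h3 : N = 0 := by
        have h4 : γ.val * ((γ⁻¹).val * N * γ.val) * (γ⁻¹).val = N := by
          have e2 : γ.val * ((γ⁻¹).val * N * γ.val) * (γ⁻¹).val =
            (γ.val * (γ⁻¹).val) * N * (γ.val * (γ⁻¹).val) := by noncomm_ring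
          rw [e2, val_mul_inv, mul_one, one_mul]
        rw [← h4, h, mul_zero, zero_mul]
      have h4 := congrFun (congrFun h3 0) 1
      exact one_ne_zero h4
    · have h3 := hcon ⟨r₀ σ, σ, rfl⟩
      change (γ * r₀ σ * γ⁻¹ : GL (Fin 2) k).val 1 0 = 0 at h3
      obtain ⟨ha, hd⟩ := isUnit_diag h3
      obtain ⟨g, hg⟩ : ∃ g, g = γ * r₀ σ * γ⁻¹ := ⟨_, rfl⟩
      rw [← hg] at h3 ha hd
      have h4 : g.val * N = (g 0 0 / g 1 1) • (N * g.val) := by
        have e00 : (g.val * N) 0 0 = 0 := by simp [N, Matrix.mul_apply]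
        have e01 : (g.val * N) 0 1 = g 0 0 := by simp [N, Matrix.mul_apply]
        have e10 : (g.val * N) 1 0 = 0 := by simp [N, Matrix.mul_apply]
        have e11 : (g.val * N) 1 1 = g 1 0 := by simp [N, Matrix.mul_apply]
        have f00 : (N * g.val) 0 0 = g 1 0 := by
          rw [Matrix.mul_apply, Fin.sum_univ_two]; simp [N]
        have f01 : (N * g.val) 0 1 = g 1 1 := by
          rw [Matrix.mul_apply, Fin.sum_univ_two]; simp [N]
        have f10 : (N * g.val) 1 0 = 0 := by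
          rw [Matrix.mul_apply, Fin.sum_univ_two]; simp [N]
        have f11 : (N * g.val) 1 1 = 0 := by
          rw [Matrix.mul_apply, Fin.sum_univ_two]; simp [N]
        ext i j
        rw [Matrix.smul_apply]
        fin_cases i <;> fin_cases j
        · change (g.val * N) 0 0 = _ • (N * g.val) 0 0
          rw [e00, f00, h3, smul_zero]
        · change (g.val * N) 0 1 = _ • (N * g.val) 0 1
          rw [e01, f01, smul_eq_mul, div_mul_cancel₀ _ hd]
        · change (g.val * N) 1 0 = _ • (N * g.val) 1 0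
          rw [e10, f10, smul_zero]
        · change (g.val * N) 1 1 = _ • (N * g.val) 1 1
          rw [e11, f11, smul_zero, h3]
      have h5 : g.val * N * (g⁻¹).val = (g 0 0 / g 1 1) • N := by
        rw [h4, smul_mul_assoc, mul_assoc, val_mul_inv, mul_one]
      refine ⟨g 0 0 / g 1 1, ?_⟩
      have h6 : r₀ σ = γ⁻¹ * g * γ := by rw [hg]; group
      have h7 : (r₀ σ)⁻¹ = γ⁻¹ * g⁻¹ * γ := by rw [hg]; group
      rw [← hr₀, ← hr₀i, h7, h6, Units.val_mul, Units.val_mul, Units.val_mul, Units.val_mul]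
      have e2 : (γ⁻¹).val * g.val * γ.val * ((γ⁻¹).val * N * γ.val) * ((γ⁻¹).val * (g⁻¹).val * γ.val) =
          (γ⁻¹).val * g.val * (γ.val * (γ⁻¹).val) * N * (γ.val * (γ⁻¹).val) * (g⁻¹).val * γ.val := by
        noncomm_ring
      have e3 : (γ⁻¹).val * g.val * N * (g⁻¹).val * γ.val = (γ⁻¹).val * (g.val * N * (g⁻¹).val) * γ.val := by
        noncomm_ring
      rw [e2, val_mul_inv, mul_one, mul_one, e3, h5, mul_smul_comm, smul_mul_assoc]
  · rintro ⟨_, σ, rfl⟩
    exact hsplit σ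
  · obtain ⟨σ, hσ⟩ := hdet
    exact ⟨⟨r₀ σ, σ, rfl⟩, hσ⟩

/-- **`H¹` of the image with values in `ad⁰(1)` vanishes** (cyclotomic determinant). -/
theorem hH1 [Finite k] {p : ℕ} [hp : Fact p.Prime] [CharP k p] (hp2 : p ≠ 2)
    {ρ : 𝒢 →* M2 k} (hno : TWG.NoLine ρ)
    (hsplit : ∀ σ, ∃ α β, (ρ σ).trace = α + β ∧ (ρ σ).det = α * β)
    (ι : ZMod p →+* k) (hdet : ∀ σ, (ρ σ).det = ι (cyc p σ)) (c : 𝒢 → M2 k) (hc : TCoc ρ c)
    (hc0 : ∀ σ, ρ σ = 1 → c σ = 0) : TCob ρ c := by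
  have h2 : (2 : k) ≠ 0 := by
    intro h
    have h3 : ((2 : ℕ) : k) = 0 := by exact_mod_cast h
    rw [CharP.cast_eq_zero_iff k p] at h3
    exact hp2 ((Nat.prime_dvd_prime_iff_eq hp.out Nat.prime_two).1 h3)
  obtain ⟨σ, hσ⟩ := cyc_surj p 2 ((Nat.coprime_primes Nat.prime_two hp.out).2 (Ne.symm hp2))
  refine hH1' h2 p hno hsplit ⟨σ, ?_⟩ c hc hc0
  rw [hdet, hσ]
  exact map_ofNat ι 2

end

end Fermat.Agent.Dk
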