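import Fermat.Agent.Dk.GL

/-!
# Sylow subgroups of subgroups of `GL₂` of a finite field
-/

set_option autoImplicit false
set_option linter.unusedSectionVars false
set_option linter.style.haveILetI false

open MulAction Matrix Matrix.GeneralLinearGroup OnePoint
open scoped MatrixGroups

namespace Fermat.Agent.Dk

noncomputable section

variable {k : Type*} [Field k] [DecidableEq k]

theorem exists_smul_eq_infty (x : OnePoint k) : ∃ γ : GL (Fin 2) k, γ • x = ∞ := by
  cases x with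
  | infty => exact ⟨1, one_smul _ _⟩
  | coe c =>
    refine ⟨GeneralLinearGroup.mkOfDetNeZero !![0, 1; 1, -c] (by simp [det_fin_two]), ?_⟩
    rw [smul_some_eq_ite, if_pos]
    simp [GeneralLinearGroup.mkOfDetNeZero]

omit [DecidableEq k] in
theorem upper_pow {g : GL (Fin 2) k} (h : g 1 0 = 0) (n : ℕ) :
    (g ^ n : GL (Fin 2) k) 1 0 = 0 ∧ (g ^ n : GL (Fin 2) k) 0 0 = g 0 0 ^ n ∧
      (g ^ n : GL (Fin 2) k) 1 1 = g 1 1 ^ n := by
  induction n with
  | zero => simp
  | succ n ih =>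
    obtain ⟨h1, h2, h3⟩ := ih
    rw [pow_succ, Units.val_mul]
    simp only [Matrix.mul_apply, Fin.sum_univ_two, h1, h2, h3, h]
    refine ⟨by ring, by ring, by ring⟩

variable {p : ℕ} [Fact p.Prime] [CharP k p]

theorem eq_one_of_pow {a : k} {m : ℕ} (h : a ^ (p ^ m) = 1) : a = 1 := by
  have h1 : (a - 1) ^ (p ^ m) = 0 := by
    rw [sub_pow_char_pow, h, one_pow, sub_self]
  exact sub_eq_zero.1 (pow_eq_zero_iff (pow_pos (Fact.out (p := p.Prime)).pos m).ne' |>.1 h1)

theorem upper_of_pow {g : GL (Fin 2) k} (h : g 1 0 = 0) {m : ℕ} (hm : g ^ (p ^ m) = 1) :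
    g = upperRightHom (g 0 1) := by
  obtain ⟨-, h2, h3⟩ := upper_pow h (p ^ m)
  rw [hm] at h2 h3
  have h4 : g 0 0 = 1 := eq_one_of_pow (p := p) (m := m) (by rw [← h2]; simp)
  have h5 : g 1 1 = 1 := eq_one_of_pow (p := p) (m := m) (by rw [← h3]; simp)
  apply Units.ext
  rw [upperRightHom_apply]
  ext i j
  fin_cases i <;> fin_cases j <;> simp [h, h4, h5]

variable {Γ : Type*} [Group Γ] [Finite Γ] (r : Γ →* GL (Fin 2) k)

/-- the determinant character -/
def dt : Γ →* kˣ := GeneralLinearGroup.det.comp r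

theorem mem_ker_dt {g : Γ} : g ∈ (dt r).ker ↔ (r g : Matrix (Fin 2) (Fin 2) k).det = 1 := by
  rw [MonoidHom.mem_ker, Units.ext_iff]
  rfl

variable [Finite k]

theorem exists_upper (P : Sylow p (dt r).ker) :
    ∃ γ : GL (Fin 2) k, ∀ u ∈ P, ∃ b, γ * r u * γ⁻¹ = upperRightHom b := by
  classical
  haveI := Fintype.ofFinite k
  letI : MulAction P (OnePoint k) :=
    MulAction.compHom (OnePoint k) (r.comp ((dt r).ker.subtype.comp (P : Subgroup (dt r).ker).subtype))
  have hsm : ∀ (u : P) (x : OnePoint k), u • x = r (u : (dt r).ker) • x := fun _ _ => rfl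
  obtain ⟨x, hx⟩ := P.2.nonempty_fixed_point_of_prime_not_dvd_card (OnePoint k) (by
    have h1 : Nat.card (OnePoint k) = Nat.card k + 1 := Finite.card_option
    rw [h1]
    intro h2
    have h3 : p ∣ Nat.card k := by
      rw [← CharP.cast_eq_zero_iff k p, Nat.card_eq_fintype_card, Nat.cast_card_eq_zero]
    rw [Nat.dvd_add_right h3] at h2
    exact (Fact.out (p := p.Prime)).one_lt.ne' (Nat.dvd_one.1 h2))
  obtain ⟨γ, hγ⟩ := exists_smul_eq_infty x
  refine ⟨γ, fun u hu => ?_⟩
  have h1 : r (u : (dt r).ker) • x = x := hx ⟨u, hu⟩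
  have h2 : (γ * r (u : (dt r).ker) * γ⁻¹) • (∞ : OnePoint k) = ∞ := by
    rw [← hγ, mul_smul, mul_smul, inv_smul_smul, h1]
  obtain ⟨m, hm⟩ := P.2 ⟨u, hu⟩
  have h3 : u ^ (p ^ m) = 1 := congrArg Subtype.val hm
  have h4 : (u : Γ) ^ (p ^ m) = 1 := congrArg Subtype.val h3
  refine ⟨_, upper_of_pow (p := p) (m := m) (smul_infty_eq_self_iff.1 h2) ?_⟩
  rw [conj_pow, ← map_pow, h4, map_one, mul_one, mul_inv_cancel]

variable [NeZero (2 : k)]

omit [Finite k] [NeZero (2 : k)] in
theorem par_upper {b : k} (hb0 : b ≠ 0) : (upperRightHom b : GL (Fin 2) k).IsParabolic := by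
  rw [GeneralLinearGroup.isParabolic_iff_of_upperTriangular (by simp)]
  simp [hb0]

omit [Finite k] [NeZero (2 : k)] in
theorem pfp_upper (b : k) : parabolicFixedPoint (upperRightHom b : GL (Fin 2) k) = ∞ := by
  rw [parabolicFixedPoint, if_pos]
  simp

/-- parabolic elements of determinant one -/
theorem sq_pow_of_par {h : GL (Fin 2) k} (hh : h.IsParabolic) (hd : h.val.det = 1) :
    (h ^ 2) ^ p = 1 ∧ h ^ 2 ≠ 1 := by
  have h2 : (2 : k) ≠ 0 := NeZero.ne 2
  obtain ⟨a, m, hg, hm0, hmsq⟩ := isParabolic_iff_exists.1 hh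
  have hm2 : m * m = 0 := by rw [← sq]; exact hmsq
  have ha : a ^ 2 = 1 := by
    have h1 : h.val.det = a ^ 2 := by
      have e1 : h.val 0 0 = a + m 0 0 := by rw [hg]; simp
      have e2 : h.val 0 1 = m 0 1 := by rw [hg]; simp
      have e3 : h.val 1 0 = m 1 0 := by rw [hg]; simp
      have e4 : h.val 1 1 = a + m 1 1 := by rw [hg]; simp
      have f1 := congrFun (congrFun hm2 0) 0
      have f2 := congrFun (congrFun hm2 0) 1
      have f3 := congrFun (congrFun hm2 1) 0
      have f4 := congrFun (congrFun hm2 1) 1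
      simp only [Matrix.mul_apply, Fin.sum_univ_two, Matrix.zero_apply] at f1 f2 f3 f4
      have f5 : m 0 0 + m 1 1 = 0 := by
        by_contra hne
        apply hm0
        have g2 : m 0 1 = 0 := by
          have : (m 0 0 + m 1 1) * m 0 1 = 0 := by linear_combination f2
          exact (mul_eq_zero.1 this).resolve_left hne
        have g3 : m 1 0 = 0 := by
          have : (m 0 0 + m 1 1) * m 1 0 = 0 := by linear_combination f3
          exact (mul_eq_zero.1 this).resolve_left hne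
        rw [g2, zero_mul, add_zero] at f1
        rw [g3, zero_mul, zero_add] at f4
        have g1 : m 0 0 = 0 := mul_self_eq_zero.1 f1
        have g4 : m 1 1 = 0 := mul_self_eq_zero.1 f4
        ext i j
        fin_cases i <;> fin_cases j <;> simp [g1, g2, g3, g4]
      rw [det_fin_two, e1, e2, e3, e4]
      linear_combination (a + m 0 0) * f5 - f1
    rw [← h1, hd]
  have ha0 : a ≠ 0 := by
    rintro rfl
    simp at ha
  have hsq : (h ^ 2).val = 1 + (2 * a) • m := by
    rw [Units.val_pow_eq_pow_val, hg, sq, add_mul, mul_add, mul_add, hm2, add_zero]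
    have e1 : Matrix.scalar (Fin 2) a * Matrix.scalar (Fin 2) a = (1 : Matrix (Fin 2) (Fin 2) k) := by
      rw [← map_mul, ← sq, ha, map_one]
    have e2 : m * Matrix.scalar (Fin 2) a = a • m := by
      rw [← Matrix.scalar_commute a (fun _ => Commute.all _ _) m, Matrix.scalar_apply, ← Matrix.smul_eq_diagonal_mul]
    have e3 : Matrix.scalar (Fin 2) a * m = a • m := by
      rw [Matrix.scalar_apply, ← Matrix.smul_eq_diagonal_mul]
    rw [e1, e2, e3, add_assoc, ← add_smul, two_mul]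
  have hpow : ∀ n : ℕ, ((h ^ 2) ^ n).val = 1 + ((n : k) * (2 * a)) • m := by
    intro n
    induction n with
    | zero => simp
    | succ n ih =>
      rw [pow_succ, Units.val_mul, ih, hsq, add_mul, mul_add, mul_add, one_mul, mul_one, one_mul,
        smul_mul_smul_comm, hm2, smul_zero, add_zero, add_assoc, ← add_smul]
      push_cast
      congr 2
      ring
  constructor
  · apply Units.ext
    rw [hpow p, CharP.cast_eq_zero, zero_mul, zero_smul, add_zero, Units.val_one]
  · intro h1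
    have h3 := congrArg Units.val h1
    rw [hsq, Units.val_one] at h3
    have h4 : (2 * a) • m = 0 := by
      have := congrArg (fun x => x - 1) h3
      simpa using this
    rcases smul_eq_zero.1 h4 with h5 | h5
    · exact mul_ne_zero h2 ha0 h5
    · exact hm0 h5

section main

variable {r} (hr : Function.Injective r) (P : Sylow p (dt r).ker)
  (hP : ∀ u ∈ P, ∃ b, r (u : (dt r).ker) = upperRightHom b)

/-- the Sylow subgroup as a subgroup of `Γ` -/
def PP : Subgroup Γ := (P : Subgroup (dt r).ker).map (dt r).ker.subtype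

omit [NeZero (2 : k)] in
theorem index_PP : (((PP P).index : ℕ) : k) ≠ 0 := by
  haveI := Fintype.ofFinite k
  intro h
  rw [CharP.cast_eq_zero_iff k p, PP, Subgroup.index_map_subtype] at h
  rcases ((Fact.out (p := p.Prime)).dvd_mul).1 h with h1 | h1
  · exact P.not_dvd_index h1
  · rw [Subgroup.index_ker] at h1
    have h2 : Nat.card (dt r).range ∣ Nat.card kˣ := Subgroup.card_subgroup_dvd_card _
    have h3 := h1.trans h2
    have h4 : (Nat.card kˣ : k) = -1 := by
      rw [Nat.card_units, Nat.cast_sub Nat.card_pos, Nat.card_eq_fintype_card, Nat.cast_card_eq_zero]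
      simp
    rw [← CharP.cast_eq_zero_iff k p, h4] at h3
    exact one_ne_zero (neg_eq_zero.1 h3)

include hP in
omit [Finite k] [NeZero (2 : k)] in
theorem mem_P_of_upper {u : (dt r).ker} {b : k} (hr : Function.Injective r)
    (hu : r (u : (dt r).ker) = upperRightHom b) : u ∈ P := by
  let U : Subgroup (dt r).ker :=
    { carrier := {u | ∃ b, r u = upperRightHom b}
      one_mem' := ⟨0, by rw [Subgroup.coe_one, map_one, AddChar.map_zero_eq_one]⟩
      mul_mem' := by
        rintro x y ⟨b, hb⟩ ⟨c, hc⟩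
        exact ⟨b + c, by rw [Subgroup.coe_mul, map_mul, hb, hc, AddChar.map_add_eq_mul]⟩
      inv_mem' := by
        rintro x ⟨b, hb⟩
        exact ⟨-b, by rw [Subgroup.coe_inv, map_inv, hb, AddChar.map_neg_eq_inv]⟩ }
  have hU : IsPGroup p U := by
    rintro ⟨x, b, hb⟩
    refine ⟨1, ?_⟩
    apply Subtype.ext
    apply Subtype.ext
    apply hr
    change r (x ^ (p ^ 1) : Γ) = r 1
    rw [map_pow, hb, pow_one, ← AddChar.map_nsmul_eq_pow, nsmul_eq_mul, CharP.cast_eq_zero,
      zero_mul, AddChar.map_zero_eq_one, map_one]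
  have h1 := P.3 hU (fun x hx => hP x hx)
  have h2 : u ∈ U := ⟨b, hu⟩
  rw [h1] at h2
  exact h2

include hr hP in
theorem fix_syl {g : Γ} (hg : g ∈ (dt r).ker) (hpar : (r g).IsParabolic) :
    ∃ s ∈ (dt r).ker, r s • (∞ : OnePoint k) = parabolicFixedPoint (r g) := by
  obtain ⟨h1, h2⟩ := sq_pow_of_par (p := p) hpar ((mem_ker_dt r).1 hg)
  let g' : (dt r).ker := ⟨g, hg⟩
  have hz : IsPGroup p (Subgroup.zpowers (g' ^ 2)) := by
    rw [IsPGroup.iff_orderOf]
    rintro ⟨x, m, hm⟩
    have h3 : x ^ p = 1 := by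
      have h4 : (g' ^ 2) ^ p = 1 := by
        apply Subtype.ext
        apply hr
        change r ((g ^ 2) ^ p) = r 1
        rw [map_pow, map_pow, h1, map_one]
      have hm' : (g' ^ 2) ^ m = x := hm
      rw [← hm', ← zpow_natCast, ← _root_.zpow_mul, mul_comm, _root_.zpow_mul, zpow_natCast, h4, _root_.one_zpow]
    have h5 : orderOf (⟨x, m, hm⟩ : Subgroup.zpowers (g' ^ 2)) ∣ p ^ 1 := by
      rw [pow_one, orderOf_dvd_iff_pow_eq_one]
      exact Subtype.ext h3
    obtain ⟨j, -, hj⟩ := (Nat.dvd_prime_pow (Fact.out (p := p.Prime))).1 h5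
    exact ⟨j, hj⟩
  obtain ⟨Q, hQ⟩ := hz.exists_le_sylow
  obtain ⟨s, hs⟩ := MulAction.exists_smul_eq (dt r).ker Q P
  have h6 : s * g' ^ 2 * s⁻¹ ∈ P := by
    rw [← hs]
    exact Subgroup.smul_mem_pointwise_smul (g' ^ 2) (MulAut.conj s) (Q : Subgroup (dt r).ker)
      (hQ (Subgroup.mem_zpowers _))
  obtain ⟨b, hb⟩ := hP _ h6
  have hb' : r s * (r g) ^ 2 * (r s)⁻¹ = upperRightHom b := by
    rw [← hb, ← map_inv, ← map_pow, ← map_mul, ← map_mul]
    rfl
  have hb0 : b ≠ 0 := by
    rintro rfl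
    rw [AddChar.map_zero_eq_one, mul_inv_eq_one] at hb'
    exact h2 (mul_eq_left.1 hb')
  have hx : r g • parabolicFixedPoint (r g) = parabolicFixedPoint (r g) := hpar.smul_eq_self_iff.2 rfl
  have h7 : (upperRightHom b : GL (Fin 2) k) • (r s • parabolicFixedPoint (r g)) =
      r s • parabolicFixedPoint (r g) := by
    rw [← hb', mul_smul, mul_smul, inv_smul_smul, sq, mul_smul, hx, hx]
  have hup : (upperRightHom b : GL (Fin 2) k).IsParabolic := par_upper hb0
  rw [hup.smul_eq_self_iff, pfp_upper] at h7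
  refine ⟨(s⁻¹ : (dt r).ker), (s⁻¹ : (dt r).ker).2, ?_⟩
  rw [Subgroup.coe_inv, map_inv, ← h7, inv_smul_smul]

include hr hP in
theorem frattini {b : k} (hb0 : b ≠ 0) {u : Γ} (hu : r u = upperRightHom b) (g : Γ) :
    ∃ c : Γ, r c 1 0 = 0 ∧ dt r c = dt r g := by
  have hup : (upperRightHom b : GL (Fin 2) k).IsParabolic := par_upper hb0
  have h1 : (r (g * u * g⁻¹)).IsParabolic := by
    rw [map_mul, map_mul, map_inv, GeneralLinearGroup.isParabolic_conj_iff, hu]
    exact hup
  have hu1 : u ∈ (dt r).ker := by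
    rw [mem_ker_dt, hu, upperRightHom_apply]
    simp [det_fin_two]
  obtain ⟨s, hs, hs'⟩ := fix_syl hr P hP (g := g * u * g⁻¹)
    (Subgroup.Normal.conj_mem inferInstance _ hu1 _) h1
  have h2 : r g • (∞ : OnePoint k) = parabolicFixedPoint (r (g * u * g⁻¹)) := by
    rw [← h1.smul_eq_self_iff, map_mul, map_mul, map_inv, mul_smul, mul_smul, inv_smul_smul, hu]
    congr 1
    rw [smul_infty_eq_self_iff]
    simp
  refine ⟨s⁻¹ * g, ?_, ?_⟩
  · rw [← smul_infty_eq_self_iff (g := r (s⁻¹ * g)), map_mul, map_inv, mul_smul, h2, ← hs', inv_smul_smul]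
  · rw [map_mul, map_inv, (MonoidHom.mem_ker).1 hs, inv_one, one_mul]

include hr hP in
theorem exists_move {b : k} (hb0 : b ≠ 0) {u : Γ} (hu : r u = upperRightHom b)
    (hirr : ∃ g, r g 1 0 ≠ 0) : ∃ s ∈ (dt r).ker, r s • (∞ : OnePoint k) ≠ ∞ := by
  by_contra hcon
  push Not at hcon
  obtain ⟨g, hg⟩ := hirr
  have hu1 : u ∈ (dt r).ker := by
    rw [mem_ker_dt, hu, upperRightHom_apply]
    simp [det_fin_two]
  have h1 := hcon (g⁻¹ * u * g⁻¹⁻¹) (Subgroup.Normal.conj_mem inferInstance _ hu1 _)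
  rw [inv_inv, map_mul, map_mul, map_inv, mul_smul, mul_smul, inv_smul_eq_iff, hu] at h1
  have hup : (upperRightHom b : GL (Fin 2) k).IsParabolic := par_upper hb0
  rw [hup.smul_eq_self_iff, pfp_upper] at h1
  exact hg (smul_infty_eq_self_iff.1 h1)

/-- the counting lemma for the kernel of the determinant -/
theorem cl' (hirr : ∃ g, r g 1 0 ≠ 0) (hr : Function.Injective r)
    (hP : ∀ u ∈ P, ∃ b, r (u : (dt r).ker) = upperRightHom b)
    (hs : ∀ g, ∃ x : k, x * x - (r g 0 0 + r g 1 1) * x + (r g 0 0 * r g 1 1 - r g 0 1 * r g 1 0) = 0)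
    (hB : BB ((dt r).ker.map r) ≠ ⊥) :
    Nat.card (BB ((dt r).ker.map r)) ≤ 2 * Nat.card ((al ((dt r).ker.map r)).toHomUnits.range) + 1 := by
  obtain ⟨b, hb, hb0⟩ : ∃ b ∈ BB ((dt r).ker.map r), b ≠ 0 := by
    by_contra hcon
    push Not at hcon
    exact hB ((AddSubgroup.eq_bot_iff_forall _).2 hcon)
  obtain ⟨u, hu1, hu⟩ := Subgroup.mem_map.1 ((mem_BB _).1 hb)
  refine cl _ ?_ ?_ ?_ ?_
  · rintro _ ⟨g, hg, rfl⟩
    exact hs g
  · rintro _ ⟨g, hg, rfl⟩ hpar
    obtain ⟨s, hs, hs'⟩ := fix_syl hr P hP hg hpar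
    exact ⟨⟨r s, Subgroup.mem_map_of_mem r hs⟩, hs'⟩
  · obtain ⟨s, hs, hs'⟩ := exists_move hr P hP hb0 hu hirr
    exact ⟨r s, Subgroup.mem_map_of_mem r hs, hs'⟩
  · have h1 : (2 : k) ≠ 0 := NeZero.ne 2
    have hb2 : b + b ∈ BB ((dt r).ker.map r) := add_mem hb hb
    have hbb : b + b ≠ 0 := by
      rw [← two_mul]
      exact mul_ne_zero h1 hb0
    have hne : b + b ≠ b := fun h => hb0 (by simpa using h)
    haveI := Fintype.ofFinite (BB ((dt r).ker.map r))
    rw [Nat.card_eq_fintype_card]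
    have h2 : ({(0 : BB ((dt r).ker.map r)), ⟨b, hb⟩, ⟨b + b, hb2⟩} : Finset (BB ((dt r).ker.map r))).card = 3 := by
      rw [Finset.card_eq_three]
      refine ⟨_, _, _, ?_, ?_, ?_, rfl⟩
      · intro h; exact hb0 (congrArg Subtype.val h).symm
      · intro h; exact hbb (congrArg Subtype.val h).symm
      · intro h; exact hne (congrArg Subtype.val h).symm
    have h3 := Finset.card_le_univ ({(0 : BB ((dt r).ker.map r)), ⟨b, hb⟩, ⟨b + b, hb2⟩} : Finset (BB ((dt r).ker.map r)))
    omega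

end main

omit [NeZero (2 : k)] in
theorem dt_conj (γ : GL (Fin 2) k) : dt ((MulAut.conj γ).toMonoidHom.comp r) = dt r := by
  ext g
  change ((γ * r g * γ⁻¹ : GL (Fin 2) k).val).det = (r g).val.det
  rw [Units.val_mul, Units.val_mul, Matrix.det_mul, Matrix.det_mul, mul_right_comm, ← Matrix.det_mul,
    ← Units.val_mul, mul_inv_cancel, Units.val_one, Matrix.det_one, one_mul]

omit [NeZero (2 : k)] in
/-- after conjugation the Sylow subgroup is upper unipotent -/
theorem exists_conj_upper (p : ℕ) [Fact p.Prime] [CharP k p] (r : Γ →* GL (Fin 2) k) : ∃ γ : GL (Fin 2) k,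
    ∃ P : Sylow p (dt ((MulAut.conj γ).toMonoidHom.comp r)).ker,
    ∀ u ∈ P, ∃ b, ((MulAut.conj γ).toMonoidHom.comp r)
      (u : (dt ((MulAut.conj γ).toMonoidHom.comp r)).ker) = upperRightHom b := by
  obtain ⟨γ, hγ⟩ := exists_upper r (default : Sylow p (dt r).ker)
  refine ⟨γ, ?_⟩
  rw [dt_conj]
  exact ⟨default, hγ⟩

end

end Fermat.Agent.Dk
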